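import Mathlib.RingTheory.PicardGroup
import Mathlib.RingTheory.DiscreteValuationRing.Basic
import Mathlib.RingTheory.Localization.FractionRing
import Mathlib.RingTheory.Filtration

/-!
# Locally principal ideals and two-dimensional local rings over a discrete valuation ring
-/

set_option autoImplicit false

noncomputable section

open IsLocalRing

namespace Fermat.Agent.Jac

universe u

/-- A finitely generated locally principal ideal of a domain is invertible. -/
theorem invertible_of_locally_principal {R : Type u} [CommRing R] [IsDomain R] {I : Ideal R}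
    (hfg : I.FG) (h0 : I ≠ ⊥)
    (h : ∀ M : Ideal R, M.IsMaximal → I ≤ M →
      ∃ u ∈ I, ∀ z ∈ I, ∃ s ∉ M, s * z ∈ Ideal.span {u}) :
    Module.Invertible R I := by
  classical
  let K := FractionRing R
  let f : R →ₗ[R] K := Algebra.linearMap R K
  have hf : Function.Injective f := IsFractionRing.injective R K
  let P : Submodule R K := Submodule.map f I
  let Q : Submodule R K :=
    { carrier := {q | ∀ z ∈ I, ∃ r : R, algebraMap R K r = q * algebraMap R K z}
      zero_mem' := fun z _ => ⟨0, by simp⟩
      add_mem' := fun {a b} ha hb z hz => by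
        obtain ⟨r, hr⟩ := ha z hz
        obtain ⟨r', hr'⟩ := hb z hz
        exact ⟨r + r', by rw [map_add, hr, hr', add_mul]⟩
      smul_mem' := fun r {a} ha z hz => by
        obtain ⟨r', hr'⟩ := ha z hz
        exact ⟨r * r', by rw [map_mul, hr', Algebra.smul_def, mul_assoc]⟩ }
  have hle : P * Q ≤ 1 := Submodule.mul_le.mpr (by
    rintro _ ⟨z, hz, rfl⟩ q hq
    obtain ⟨r, hr⟩ := hq z hz
    exact Submodule.mem_one.mpr ⟨r, by rw [hr, mul_comm]; rfl⟩)
  let J : Ideal R := (P * Q).comap f
  have hJ : J = ⊤ := by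
    by_contra hne
    obtain ⟨M, hM, hJM⟩ := J.exists_le_maximal hne
    obtain ⟨u, hu, s, hs, hsu⟩ : ∃ u ∈ I, ∃ s ∉ M, ∀ z ∈ I, s * z ∈ Ideal.span {u} := by
      by_cases hIM : I ≤ M
      · obtain ⟨u, hu, hloc⟩ := h M hM hIM
        obtain ⟨S, hS⟩ := hfg
        choose s hs hsz using fun z : S => hloc z (hS ▸ Submodule.subset_span z.2)
        refine ⟨u, hu, ∏ z, s z, fun hc => ?_, ?_⟩
        · obtain ⟨z, -, hz⟩ := (hM.isPrime.prod_mem_iff).mp hc
          exact hs z hz
        · intro z hz
          rw [← hS] at hz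
          induction hz using Submodule.span_induction with
          | mem z hz =>
            rw [← Finset.mul_prod_erase Finset.univ s (Finset.mem_univ ⟨z, hz⟩), mul_right_comm]
            exact Ideal.mul_mem_right _ _ (hsz ⟨z, hz⟩)
          | zero => simp
          | add a b _ _ ha hb => rw [mul_add]; exact add_mem ha hb
          | smul r a _ ha => rw [smul_eq_mul, mul_left_comm]; exact Ideal.mul_mem_left _ _ ha
      · obtain ⟨u, hu, huM⟩ := SetLike.not_le_iff_exists.mp hIM
        exact ⟨u, hu, u, huM, fun z _ => Ideal.mem_span_singleton'.mpr ⟨z, mul_comm _ _⟩⟩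
    have hu0 : u ≠ 0 := by
      rintro rfl
      obtain ⟨z, hz, hz0⟩ := Submodule.exists_mem_ne_zero_of_ne_bot h0
      have := hsu z hz
      rw [Ideal.span_singleton_eq_bot.mpr rfl, Ideal.mem_bot, mul_eq_zero] at this
      exact hs (by rw [this.resolve_right hz0]; exact M.zero_mem)
    have hu' : algebraMap R K u ≠ 0 := fun hh => hu0 (hf (hh.trans (map_zero _).symm))
    refine hs (hJM ?_)
    have hq : algebraMap R K s / algebraMap R K u ∈ Q := fun z hz => by
      obtain ⟨r, hr⟩ := Ideal.mem_span_singleton'.mp (hsu z hz)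
      refine ⟨r, ?_⟩
      rw [div_mul_eq_mul_div, eq_div_iff hu', ← map_mul, hr, map_mul]
    show f s ∈ P * Q
    have := Submodule.mul_mem_mul (Submodule.mem_map_of_mem (f := f) hu : f u ∈ P) hq
    rwa [show f u = algebraMap R K u from rfl, mul_div_cancel₀ _ hu'] at this
  have hone : P * Q = 1 := le_antisymm hle (Submodule.one_le.mpr (by
    have : (1 : R) ∈ J := hJ ▸ Submodule.mem_top
    rw [show (1 : K) = f 1 from (map_one (algebraMap R K)).symm]
    exact this))
  let U : (Submodule R K)ˣ := ⟨P, Q, hone, (mul_comm Q P).trans hone⟩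
  have : FaithfulSMul R K := (faithfulSMul_iff_algebraMap_injective R K).mpr hf
  have : Module.Invertible R (U : Submodule R K) := Module.Invertible.left (Submodule.tensorInvEquiv U)
  exact Module.Invertible.congr (M := (U : Submodule R K))
    (Submodule.equivMapOfInjective f hf I).symm

variable {W Z : Type*} [CommRing W] [IsLocalRing W] [IsNoetherianRing W] [CommRing Z] [IsDomain Z]
  [IsDiscreteValuationRing Z]

/-- A local ring with maximal ideal generated by two elements maps onto a discrete valuation ring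
with principal kernel. -/
theorem exists_ker_eq_span (φ : W →+* Z) (hφ : Function.Surjective φ) (g₁ g₂ : W)
    (hg : maximalIdeal W = Ideal.span {g₁, g₂}) : ∃ u, RingHom.ker φ = Ideal.span {u} := by
  have hker : RingHom.ker φ ≤ maximalIdeal W := le_maximalIdeal (RingHom.ker_ne_top φ)
  have hmap : Ideal.map φ (maximalIdeal W) = maximalIdeal Z := by
    refine eq_maximalIdeal ?_
    rcases Ideal.map_eq_top_or_isMaximal_of_surjective φ hφ
        (IsLocalRing.maximalIdeal.isMaximal W) with h | h
    · exfalso
      have := congrArg (Ideal.comap φ) h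
      rw [Ideal.comap_map_of_surjective φ hφ, Ideal.comap_top, ← RingHom.ker_eq_comap_bot,
        sup_eq_left.mpr hker] at this
      exact (IsLocalRing.maximalIdeal.isMaximal W).ne_top this
    · exact h
  obtain ⟨π, hπ⟩ := IsDiscreteValuationRing.exists_irreducible Z
  have hπm := hπ.maximalIdeal_eq
  -- one of the generators maps to a uniformiser
  have key : ∀ g₁ g₂ : W, maximalIdeal W = Ideal.span {g₁, g₂} →
      maximalIdeal Z = Ideal.span {φ g₂} → ∃ u, RingHom.ker φ = Ideal.span {u} := by
    intro g₁ g₂ hg h2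
    have h1 : φ g₁ ∈ maximalIdeal Z := hmap ▸ Ideal.mem_map_of_mem φ
      (hg ▸ Ideal.subset_span (by simp))
    rw [h2, Ideal.mem_span_singleton'] at h1
    obtain ⟨w, hw⟩ := h1
    obtain ⟨w', rfl⟩ := hφ w
    refine ⟨g₁ - w' * g₂, le_antisymm (fun z hz => ?_) ?_⟩
    · set u := g₁ - w' * g₂
      have hu : φ u = 0 := by simp [u, hw]
      have hm : ∀ r ∈ maximalIdeal W, ∃ α β, r = α * u + β * g₂ := fun r hr => by
        rw [hg, Ideal.mem_span_pair] at hr
        obtain ⟨α, β, rfl⟩ := hr
        exact ⟨α, β + α * w', by simp only [u]; ring⟩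
      have hne : φ g₂ ≠ 0 := fun h0 => by
        rw [h0, Ideal.span_singleton_eq_bot.mpr rfl, hπm, Ideal.span_singleton_eq_bot] at h2
        exact hπ.ne_zero h2
      have hn : ∀ n : ℕ, ∃ α r, z = α * u + r * g₂ ^ n := by
        intro n
        induction n with
        | zero => exact ⟨0, z, by simp⟩
        | succ n ih =>
          obtain ⟨α, r, hr⟩ := ih
          have h3 : φ r * φ g₂ ^ n = 0 := by
            have := RingHom.mem_ker.mp hz
            rw [hr, map_add, map_mul, map_mul, hu, mul_zero, zero_add, map_pow] at this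
            exact this
          obtain ⟨α', β, rfl⟩ := hm r (hker ((mul_eq_zero.mp h3).resolve_right (pow_ne_zero n hne)))
          exact ⟨α + α' * g₂ ^ n, β, by rw [hr]; ring⟩
      have h4 : Ideal.Quotient.mk (Ideal.span {u}) z ∈
          (⨅ n : ℕ, maximalIdeal W ^ n • ⊤ : Submodule W (W ⧸ Ideal.span {u})) := by
        rw [Submodule.mem_iInf]
        intro n
        obtain ⟨α, r, hr⟩ := hn n
        have : Ideal.Quotient.mk (Ideal.span {u}) z =
            g₂ ^ n • Ideal.Quotient.mk (Ideal.span {u}) r := by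
          rw [Algebra.smul_def, Ideal.Quotient.algebraMap_eq, ← map_mul, Ideal.Quotient.eq, hr]
          exact Ideal.mem_span_singleton'.mpr ⟨α, by ring⟩
        rw [this]
        exact Submodule.smul_mem_smul (Ideal.pow_mem_pow (hg ▸ Ideal.subset_span (by simp)) n)
          Submodule.mem_top
      rw [Ideal.iInf_pow_smul_eq_bot_of_isLocalRing _
        (IsLocalRing.maximalIdeal.isMaximal W).ne_top, Submodule.mem_bot,
        Ideal.Quotient.eq_zero_iff_mem] at h4
      exact h4
    · rw [Ideal.span_le, Set.singleton_subset_iff, SetLike.mem_coe, RingHom.mem_ker]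
      simp [hw]
  by_cases h2 : maximalIdeal Z = Ideal.span {φ g₂}
  · exact key g₁ g₂ hg h2
  by_cases h1 : maximalIdeal Z = Ideal.span {φ g₁}
  · exact key g₂ g₁ (by rw [hg, Set.pair_comm]) h1
  exfalso
  have hsq : ∀ g, φ g ∈ maximalIdeal Z → maximalIdeal Z ≠ Ideal.span {φ g} →
      φ g ∈ Ideal.span {π * π} := fun g hg' hne => by
    rw [hπm, Ideal.mem_span_singleton'] at hg'
    obtain ⟨a, ha⟩ := hg'
    have : ¬ IsUnit a := fun hu => hne (by
      rw [hπm, ← ha, Ideal.span_singleton_mul_left_unit hu])
    rw [← IsLocalRing.notMem_maximalIdeal, not_not, hπm, Ideal.mem_span_singleton'] at this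
    obtain ⟨b, rfl⟩ := this
    exact Ideal.mem_span_singleton'.mpr ⟨b, by rw [← ha, mul_assoc]⟩
  have hle : maximalIdeal Z ≤ Ideal.span {π * π} := by
    rw [← hmap, hg, Ideal.map_span, Set.image_pair, Ideal.span_le, Set.pair_subset_iff]
    exact ⟨hsq _ (hmap ▸ Ideal.mem_map_of_mem φ (hg ▸ Ideal.subset_span (by simp))) h1,
      hsq _ (hmap ▸ Ideal.mem_map_of_mem φ (hg ▸ Ideal.subset_span (by simp))) h2⟩
  rw [hπm, Ideal.span_singleton_le_span_singleton] at hle
  obtain ⟨a, ha⟩ := hle
  refine hπ.not_isUnit (IsUnit.of_mul_eq_one a ?_)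
  refine mul_left_cancel₀ hπ.ne_zero ?_
  rw [← mul_assoc, ← ha, mul_one]

end Fermat.Agent.Jac
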