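import Mathlib.RingTheory.TensorProduct.Finite
import Mathlib.RingTheory.FiniteType
import Fermat.Agent.Jac.Geometry.LocalAlg
import Fermat.Agent.Jac.Diagonal.LocallyPrincipal

/-!
# The kernel of a surjection from a product of two smooth affine curves onto a smooth curve
-/

set_option autoImplicit false

noncomputable section

open IsLocalRing TensorProduct

namespace Fermat.Agent.Jac

universe u

set_option linter.overlappingInstances false

/-- A generator of a prime of a Dedekind domain up to localisation. -/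
theorem exists_local_generator {X : Type u} [CommRing X] [IsDomain X] [IsDedekindDomain X]
    (p : Ideal X) [p.IsPrime] : ∃ a ∈ p, ∀ z ∈ p, ∃ s ∉ p, s * z ∈ Ideal.span {a} := by
  by_cases hp : p = ⊥
  · exact ⟨0, p.zero_mem, fun z hz => ⟨1, (Ideal.ne_top_iff_one p).mp (Ideal.IsPrime.ne_top ‹_›),
      by rw [hp, Ideal.mem_bot] at hz; simp [hz]⟩⟩
  set L := Localization.AtPrime p
  have : IsDiscreteValuationRing L :=
    IsLocalization.AtPrime.isDiscreteValuationRing_of_dedekind_domain X hp L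
  obtain ⟨π, hπ⟩ := IsDiscreteValuationRing.exists_irreducible L
  obtain ⟨⟨a, s⟩, has⟩ := IsLocalization.surj p.primeCompl π
  have hmax : maximalIdeal L = Ideal.span {algebraMap X L a} := by
    rw [hπ.maximalIdeal_eq, ← has,
      Ideal.span_singleton_mul_right_unit (IsLocalization.map_units L s)]
  refine ⟨a, ?_, fun z hz => ?_⟩
  · rw [← IsLocalization.AtPrime.to_map_mem_maximal_iff L p, hmax]
    exact Ideal.mem_span_singleton_self _
  · have h := (IsLocalization.AtPrime.to_map_mem_maximal_iff L p z).mpr hz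
    rw [hmax, ← Set.image_singleton, ← Ideal.map_span,
      IsLocalization.mem_map_algebraMap_iff p.primeCompl] at h
    obtain ⟨⟨⟨b, hb⟩, t⟩, h⟩ := h
    rw [← map_mul, IsLocalization.eq_iff_exists p.primeCompl] at h
    obtain ⟨t', ht'⟩ := h
    refine ⟨t' * t, p.primeCompl.mul_mem t'.2 t.2, ?_⟩
    rw [mul_assoc, mul_comm (t : X) z, ht']
    exact Ideal.mul_mem_left _ _ hb

variable {k X Y Z : Type u} [Field k] [IsAlgClosed k] [CommRing X] [Algebra k X] [CommRing Y]
  [Algebra k Y] [Algebra.FiniteType k X] [Algebra.FiniteType k Y]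

omit [IsAlgClosed k] in
theorem finiteType_tensor : Algebra.FiniteType k (X ⊗[k] Y) :=
  Algebra.FiniteType.trans (S := X) inferInstance inferInstance

/-- The maximal ideal of a point of a product is generated by the two factors. -/
theorem maximal_le_map_sup (M : Ideal (X ⊗[k] Y)) [M.IsMaximal] :
    M ≤ (M.comap (Algebra.TensorProduct.includeLeft : X →ₐ[k] X ⊗[k] Y)).map
        (Algebra.TensorProduct.includeLeft : X →ₐ[k] X ⊗[k] Y) ⊔
      (M.comap (Algebra.TensorProduct.includeRight : Y →ₐ[k] X ⊗[k] Y)).map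
        (Algebra.TensorProduct.includeRight : Y →ₐ[k] X ⊗[k] Y) := by
  have := finiteType_tensor (k := k) (X := X) (Y := Y)
  let e := RingEquiv.ofBijective (algebraMap k ((X ⊗[k] Y) ⧸ M)) (quotient_bijective M)
  let ε : X ⊗[k] Y →ₐ[k] k :=
    { (e.symm : ((X ⊗[k] Y) ⧸ M) →+* k).comp (Ideal.Quotient.mk M) with
      commutes' := fun r => e.symm_apply_apply r }
  have hsub : ∀ z, z - algebraMap k _ (ε z) ∈ M := fun z => by
    rw [← Ideal.Quotient.eq]
    exact (e.apply_symm_apply (Ideal.Quotient.mk M z)).symm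
  set J := (M.comap (Algebra.TensorProduct.includeLeft : X →ₐ[k] X ⊗[k] Y)).map
        (Algebra.TensorProduct.includeLeft : X →ₐ[k] X ⊗[k] Y) ⊔
      (M.comap (Algebra.TensorProduct.includeRight : Y →ₐ[k] X ⊗[k] Y)).map
        (Algebra.TensorProduct.includeRight : Y →ₐ[k] X ⊗[k] Y)
  suffices ∀ z, z - algebraMap k _ (ε z) ∈ J by
    intro z hz
    have h0 : ε z = 0 := by
      show e.symm (Ideal.Quotient.mk M z) = 0
      rw [Ideal.Quotient.eq_zero_iff_mem.mpr hz, map_zero]
    simpa [h0] using this z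
  intro z
  induction z using TensorProduct.induction_on with
  | zero => simp
  | add z w hz hw =>
    rw [map_add, map_add, add_sub_add_comm]
    exact add_mem hz hw
  | tmul a b =>
    have ha : a ⊗ₜ[k] (1 : Y) - algebraMap k _ (ε (a ⊗ₜ[k] 1)) ∈ J := by
      refine Ideal.mem_sup_left ?_
      have h := hsub (a ⊗ₜ[k] (1 : Y))
      rw [show a ⊗ₜ[k] (1 : Y) = (Algebra.TensorProduct.includeLeft : X →ₐ[k] X ⊗[k] Y) a from rfl,
        ← AlgHom.commutes (Algebra.TensorProduct.includeLeft : X →ₐ[k] X ⊗[k] Y),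
        ← map_sub] at h ⊢
      exact Ideal.mem_map_of_mem _ h
    have hb : (1 : X) ⊗ₜ[k] b - algebraMap k _ (ε ((1 : X) ⊗ₜ[k] b)) ∈ J := by
      refine Ideal.mem_sup_right ?_
      have h := hsub ((1 : X) ⊗ₜ[k] b)
      rw [show (1 : X) ⊗ₜ[k] b = (Algebra.TensorProduct.includeRight : Y →ₐ[k] X ⊗[k] Y) b from rfl,
        ← AlgHom.commutes (Algebra.TensorProduct.includeRight : Y →ₐ[k] X ⊗[k] Y),
        ← map_sub] at h ⊢
      exact Ideal.mem_map_of_mem _ h
    have h : a ⊗ₜ[k] b = (a ⊗ₜ[k] (1 : Y)) * ((1 : X) ⊗ₜ[k] b) := by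
      rw [Algebra.TensorProduct.tmul_mul_tmul, mul_one, one_mul]
    rw [h, map_mul, map_mul]
    have := add_mem (J.mul_mem_right ((1 : X) ⊗ₜ[k] b) ha)
      (J.mul_mem_left (algebraMap k (X ⊗[k] Y) (ε (a ⊗ₜ[k] (1 : Y)))) hb)
    convert this using 1
    ring

variable [IsDomain X] [IsDedekindDomain X] [IsDomain Y] [IsDedekindDomain Y] [CommRing Z]
  [Algebra k Z] [IsDomain Z] [IsDedekindDomain Z]

theorem exists_local_ker (φ : X ⊗[k] Y →ₐ[k] Z) (hφ : Function.Surjective φ) (hZ : ¬ IsField Z)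
    (M : Ideal (X ⊗[k] Y)) [M.IsMaximal] (hM : RingHom.ker φ ≤ M) :
    ∃ u ∈ RingHom.ker φ, ∀ z ∈ RingHom.ker φ, ∃ s ∉ M, s * z ∈ Ideal.span {u} := by
  set P := X ⊗[k] Y
  have : Algebra.FiniteType k P := finiteType_tensor
  have : IsNoetherianRing P := Algebra.FiniteType.isNoetherianRing k P
  set W := Localization.AtPrime M
  set n := M.map φ.toRingHom
  have hcomap : n.comap φ.toRingHom = M := by
    rw [Ideal.comap_map_of_surjective φ.toRingHom hφ, ← RingHom.ker_eq_comap_bot]
    exact sup_eq_left.mpr hM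
  have hn : n.IsMaximal := by
    rcases Ideal.map_eq_top_or_isMaximal_of_surjective φ.toRingHom hφ ‹M.IsMaximal› with h | h
    · exact absurd (by rw [← hcomap, show n = ⊤ from h, Ideal.comap_top]) (‹M.IsMaximal›).ne_top
    · exact h
  have hn0 : n ≠ ⊥ := fun h => hZ (Ring.isField_iff_maximal_bot.mpr (h ▸ hn))
  set V := Localization.AtPrime n
  have : IsDiscreteValuationRing V :=
    IsLocalization.AtPrime.isDiscreteValuationRing_of_dedekind_domain Z hn0 V
  let ψ : W →+* V := Localization.localRingHom M n φ.toRingHom hcomap.symm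
  have hψmk : ∀ (z : P), ψ (algebraMap P W z) = algebraMap Z V (φ z) :=
    fun z => Localization.localRingHom_to_map M n φ.toRingHom hcomap.symm z
  have hψ : Function.Surjective ψ := fun v => by
    obtain ⟨z, t, rfl⟩ := IsLocalization.exists_mk'_eq n.primeCompl v
    obtain ⟨z', rfl⟩ := hφ z
    obtain ⟨t', ht'⟩ := hφ t
    have ht'M : t' ∈ M.primeCompl := fun h => t.2 (by
      show (t : Z) ∈ n
      rw [← ht']; exact Ideal.mem_map_of_mem φ.toRingHom h)
    refine ⟨IsLocalization.mk' W z' ⟨t', ht'M⟩, ?_⟩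
    rw [Localization.localRingHom_mk']
    congr 1
    exact Subtype.ext ht'
  obtain ⟨a, ha, hloca⟩ :=
    exists_local_generator (M.comap (Algebra.TensorProduct.includeLeft : X →ₐ[k] P))
  obtain ⟨b, hb, hlocb⟩ :=
    exists_local_generator (M.comap (Algebra.TensorProduct.includeRight : Y →ₐ[k] P))
  have hg : maximalIdeal W = Ideal.span {algebraMap P W (a ⊗ₜ 1), algebraMap P W (1 ⊗ₜ b)} := by
    refine le_antisymm ?_ ?_
    · rw [← Localization.AtPrime.map_eq_maximalIdeal]
      refine (Ideal.map_mono (maximal_le_map_sup M)).trans ?_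
      rw [Ideal.map_sup, sup_le_iff]
      constructor
      · rw [Ideal.map_le_iff_le_comap, Ideal.map_le_iff_le_comap]
        intro x hx
        simp only [Ideal.mem_comap] at hx ⊢
        obtain ⟨s, hs, hsx⟩ := hloca x hx
        obtain ⟨r, hr⟩ := Ideal.mem_span_singleton'.mp hsx
        have hu : IsUnit (algebraMap P W (s ⊗ₜ 1)) :=
          IsLocalization.map_units W (⟨s ⊗ₜ 1, hs⟩ : M.primeCompl)
        refine (Ideal.unit_mul_mem_iff_mem _ hu).mp ?_
        rw [← map_mul, show s ⊗ₜ[k] (1 : Y) * (Algebra.TensorProduct.includeLeft : X →ₐ[k] P) x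
            = (r * a) ⊗ₜ[k] (1 : Y) by simp [hr],
          show (r * a) ⊗ₜ[k] (1 : Y) = (r ⊗ₜ 1) * (a ⊗ₜ[k] (1 : Y)) by simp, map_mul]
        exact Ideal.mul_mem_left _ _ (Ideal.subset_span (by simp))
      · rw [Ideal.map_le_iff_le_comap, Ideal.map_le_iff_le_comap]
        intro x hx
        simp only [Ideal.mem_comap] at hx ⊢
        obtain ⟨s, hs, hsx⟩ := hlocb x hx
        obtain ⟨r, hr⟩ := Ideal.mem_span_singleton'.mp hsx
        have hu : IsUnit (algebraMap P W (1 ⊗ₜ s)) :=
          IsLocalization.map_units W (⟨1 ⊗ₜ s, hs⟩ : M.primeCompl)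
        refine (Ideal.unit_mul_mem_iff_mem _ hu).mp ?_
        rw [← map_mul, show (1 : X) ⊗ₜ[k] s * (Algebra.TensorProduct.includeRight : Y →ₐ[k] P) x
            = (1 : X) ⊗ₜ[k] (r * b) by simp [hr],
          show (1 : X) ⊗ₜ[k] (r * b) = ((1 : X) ⊗ₜ r) * ((1 : X) ⊗ₜ[k] b) by simp, map_mul]
        exact Ideal.mul_mem_left _ _ (Ideal.subset_span (by simp))
    · rw [Ideal.span_le, Set.pair_subset_iff]
      exact ⟨(IsLocalization.AtPrime.to_map_mem_maximal_iff W M _).mpr ha,
        (IsLocalization.AtPrime.to_map_mem_maximal_iff W M _).mpr hb⟩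
  obtain ⟨w, hw⟩ := exists_ker_eq_span ψ hψ _ _ hg
  obtain ⟨⟨u, s⟩, hus⟩ := IsLocalization.surj M.primeCompl w
  have hinj : Function.Injective (algebraMap Z V) :=
    IsLocalization.injective V n.primeCompl_le_nonZeroDivisors
  have huker : u ∈ RingHom.ker φ := by
    rw [RingHom.mem_ker]
    refine hinj ?_
    rw [map_zero, ← hψmk, ← hus, map_mul,
      RingHom.mem_ker.mp (hw ▸ Ideal.mem_span_singleton_self w : w ∈ RingHom.ker ψ), zero_mul]
  refine ⟨u, huker, fun z hz => ?_⟩
  have : algebraMap P W z ∈ Ideal.span {algebraMap P W u} := by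
    rw [← hus, Ideal.span_singleton_mul_right_unit (IsLocalization.map_units W s), ← hw,
      RingHom.mem_ker, hψmk, RingHom.mem_ker.mp hz, map_zero]
  rw [← Set.image_singleton, ← Ideal.map_span,
    IsLocalization.mem_map_algebraMap_iff M.primeCompl] at this
  obtain ⟨⟨⟨c, hc⟩, t⟩, h⟩ := this
  rw [← map_mul, IsLocalization.eq_iff_exists M.primeCompl] at h
  obtain ⟨t', ht'⟩ := h
  refine ⟨t' * t, M.primeCompl.mul_mem t'.2 t.2, ?_⟩
  rw [mul_assoc, mul_comm (t : P) z, ht']
  exact Ideal.mul_mem_left _ _ hc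

/-- The kernel of a surjection of `X ⊗ Y` onto a curve is invertible. -/
theorem invertible_ker [IsDomain (X ⊗[k] Y)] (φ : X ⊗[k] Y →ₐ[k] Z) (hφ : Function.Surjective φ)
    (hZ : ¬ IsField Z) (hker : RingHom.ker φ ≠ ⊥) :
    Module.Invertible (X ⊗[k] Y) (RingHom.ker φ) := by
  have := finiteType_tensor (k := k) (X := X) (Y := Y)
  have : IsNoetherianRing (X ⊗[k] Y) := Algebra.FiniteType.isNoetherianRing k _
  exact invertible_of_locally_principal (IsNoetherian.noetherian _) hker fun M hM hle =>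
    exists_local_ker φ hφ hZ M hle

end Fermat.Agent.Jac
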