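import Mathlib.LinearAlgebra.Basis.VectorSpace
import Mathlib.RingTheory.DedekindDomain.Dvr
import Fermat.Agent.Jac.Alg.Bounded
import Fermat.Agent.Jac.Geometry.GeomIntegral
import Fermat.Agent.Jac.Diagonal.Kernel

/-!
# The ideals of the diagonal on the four products of the charts of a curve
-/

set_option autoImplicit false

noncomputable section

open Polynomial TensorProduct

namespace Fermat.Agent.Jac

universe u

set_option linter.style.haveILetI false

variable {k : Type u} [Field k]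

theorem tmul_sub_one_tmul_ne_zero {X Y : Type u} [CommRing X] [Algebra k X] [CommRing Y]
    [Algebra k Y] {a : X} {c d : Y} (ha : a ∉ Submodule.span k {(1 : X)}) (hc : c ≠ 0) :
    a ⊗ₜ[k] c - (1 : X) ⊗ₜ[k] d ≠ 0 := by
  obtain ⟨f, hf, hle⟩ := Submodule.exists_le_ker_of_notMem ha
  intro h
  have h1 : f 1 = 0 := hle (Submodule.mem_span_singleton_self 1)
  have h2 := congrArg (fun z => TensorProduct.lid k Y (LinearMap.rTensor Y f z)) h
  simp [h1, hf, hc] at h2

namespace CurveData

variable (D : CurveData.{u} k)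

theorem isUnit_of_aeval {R : Type u} [CommRing R] [Algebra k R] {r : R}
    (hfin : (aeval r : k[X] →ₐ[k] R).toRingHom.Finite)
    (hinj : Function.Injective (aeval r : k[X] →ₐ[k] R)) {p : k[X]}
    (h : IsUnit (aeval r p)) : IsUnit p :=
  have := hfin.to_isIntegral.isLocalHom hinj
  isUnit_of_map_unit (aeval r : k[X] →ₐ[k] R).toRingHom p h

theorem not_isUnit_x_sub_one : ¬ IsUnit (D.x - 1) := fun h => by
  refine not_isUnit_X_sub_C (1 : k) (isUnit_of_aeval D.finite_x D.injective_x ?_)
  simpa using h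

theorem not_isField_A : ¬ IsField D.A := fun h => by
  refine D.not_isUnit_x_sub_one ?_
  let _ := h.toField
  refine isUnit_iff_ne_zero.mpr fun hx => X_sub_C_ne_zero (1 : k) (D.injective_x ?_)
  simpa using hx

theorem not_isField_A₁ : ¬ IsField D.A₁ := fun h => by
  let _ := h.toField
  have : IsUnit (aeval D.y (X - C (1 : k))) := by
    refine isUnit_iff_ne_zero.mpr fun hy => X_sub_C_ne_zero (1 : k) (D.injective_y ?_)
    rw [hy, map_zero]
  exact not_isUnit_X_sub_C (1 : k) (isUnit_of_aeval D.finite_y D.injective_y this)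

theorem isDomain_B : IsDomain D.B :=
  letI := D.i₀.toRingHom.toAlgebra
  have : IsLocalization.Away D.x D.B := D.awayX
  IsLocalization.isDomain_of_le_nonZeroDivisors (R := D.A) (M := Submonoid.powers D.x) D.B
    (powers_le_nonZeroDivisors_of_noZeroDivisors D.x_ne_zero)

theorem isDedekindDomain_B : IsDedekindDomain D.B :=
  have := D.isDomain_B
  letI := D.i₀.toRingHom.toAlgebra
  have : IsLocalization.Away D.x D.B := D.awayX
  IsLocalization.isDedekindDomain D.A
    (powers_le_nonZeroDivisors_of_noZeroDivisors D.x_ne_zero) D.B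

theorem not_isField_B : ¬ IsField D.B := fun h => by
  letI := D.i₀.toRingHom.toAlgebra
  have : IsLocalization.Away D.x D.B := D.awayX
  have := D.isDomain_B
  have hne : algebraMap D.A D.B (D.x - 1) ≠ 0 := fun h0 => X_sub_C_ne_zero (1 : k) (D.injective_x (by
    have := IsLocalization.injective D.B
      (powers_le_nonZeroDivisors_of_noZeroDivisors D.x_ne_zero) (h0.trans (map_zero _).symm)
    simpa using this))
  obtain ⟨b, hb⟩ := h.mul_inv_cancel hne
  obtain ⟨n, a, ha⟩ := IsLocalization.Away.surj D.x b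
  have h1 : algebraMap D.A D.B (D.x ^ n) = algebraMap D.A D.B ((D.x - 1) * a) := by
    rw [map_mul, ← ha, ← mul_assoc, hb, one_mul, map_pow]
  replace h1 := IsLocalization.injective D.B
    (powers_le_nonZeroDivisors_of_noZeroDivisors D.x_ne_zero) h1
  obtain ⟨q, hq⟩ := sub_one_dvd_pow_sub_one D.x n
  refine D.not_isUnit_x_sub_one (IsUnit.of_mul_eq_one (a - q) ?_)
  rw [mul_sub, ← h1, ← hq]
  ring

/-- Restriction to the diagonal from `A ⊗ A₁`. -/
def diag₀₁ : D.A ⊗[k] D.A₁ →ₐ[k] D.B :=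
  Algebra.TensorProduct.lift D.i₀ D.i₁ fun _ _ => Commute.all _ _

/-- Restriction to the diagonal from `A₁ ⊗ A`. -/
def diag₁₀ : D.A₁ ⊗[k] D.A →ₐ[k] D.B :=
  Algebra.TensorProduct.lift D.i₁ D.i₀ fun _ _ => Commute.all _ _

theorem exists_mul_i₁ (b : D.B) : ∃ (a : D.A) (n : ℕ), b = D.i₀ a * D.i₁ (D.y ^ n) := by
  letI := D.i₀.toRingHom.toAlgebra
  have : IsLocalization.Away D.x D.B := D.awayX
  obtain ⟨n, a, ha⟩ := IsLocalization.Away.surj D.x b
  refine ⟨a, n, ?_⟩
  rw [show D.i₀ a = algebraMap D.A D.B a from rfl, ← ha,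
    show algebraMap D.A D.B D.x = D.i₀ D.x from rfl, map_pow, mul_assoc, ← mul_pow, D.xy, one_pow,
    mul_one]

theorem diag₀₁_surjective : Function.Surjective D.diag₀₁ := fun b => by
  obtain ⟨a, n, rfl⟩ := D.exists_mul_i₁ b
  exact ⟨a ⊗ₜ (D.y ^ n), Algebra.TensorProduct.lift_tmul _ _ _ _ _⟩

theorem diag₁₀_surjective : Function.Surjective D.diag₁₀ := fun b => by
  obtain ⟨a, n, rfl⟩ := D.exists_mul_i₁ b
  exact ⟨(D.y ^ n) ⊗ₜ a, (Algebra.TensorProduct.lift_tmul _ _ _ _ _).trans (mul_comm _ _)⟩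

theorem x_notMem_span_one : D.x ∉ Submodule.span k {(1 : D.A)} := fun h => by
  obtain ⟨r, hr⟩ := Submodule.mem_span_singleton.mp h
  have : aeval D.x (X - C r : k[X]) = aeval D.x (0 : k[X]) := by
    simp [← hr, Algebra.smul_def]
  exact X_sub_C_ne_zero r (D.injective_x this)

theorem y_notMem_span_one : D.y ∉ Submodule.span k {(1 : D.A₁)} := fun h => by
  obtain ⟨r, hr⟩ := Submodule.mem_span_singleton.mp h
  have : aeval D.y (X - C r : k[X]) = aeval D.y (0 : k[X]) := by
    simp [← hr, Algebra.smul_def]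
  exact X_sub_C_ne_zero r (D.injective_y this)

variable [IsAlgClosed k]

theorem invertible_ker_diag₀₁ :
    Module.Invertible (D.A ⊗[k] D.A₁) (RingHom.ker D.diag₀₁) := by
  have := isDomain_tensor k D.A D.A₁
  have := D.isDomain_B
  have := D.isDedekindDomain_B
  refine invertible_ker D.diag₀₁ D.diag₀₁_surjective D.not_isField_B fun h =>
    tmul_sub_one_tmul_ne_zero D.x_notMem_span_one D.y_ne_zero (d := 1) ?_
  rw [← Ideal.mem_bot, ← h, RingHom.mem_ker, map_sub, diag₀₁, Algebra.TensorProduct.lift_tmul,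
    Algebra.TensorProduct.lift_tmul, D.xy, map_one, map_one, one_mul, sub_self]

theorem invertible_ker_diag₁₀ :
    Module.Invertible (D.A₁ ⊗[k] D.A) (RingHom.ker D.diag₁₀) := by
  have := isDomain_tensor k D.A₁ D.A
  have := D.isDomain_B
  have := D.isDedekindDomain_B
  refine invertible_ker D.diag₁₀ D.diag₁₀_surjective D.not_isField_B fun h =>
    tmul_sub_one_tmul_ne_zero D.y_notMem_span_one D.x_ne_zero (d := 1) ?_
  rw [← Ideal.mem_bot, ← h, RingHom.mem_ker, map_sub, diag₁₀, Algebra.TensorProduct.lift_tmul,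
    Algebra.TensorProduct.lift_tmul, mul_comm, D.xy, map_one, map_one, one_mul, sub_self]

theorem invertible_ker_diag₀₀ :
    Module.Invertible (D.A ⊗[k] D.A) (RingHom.ker (Algebra.TensorProduct.lmul' k (S := D.A))) := by
  have := isDomain_tensor k D.A D.A
  refine invertible_ker _ (fun a => ⟨a ⊗ₜ 1, by simp⟩) D.not_isField_A fun h =>
    tmul_sub_one_tmul_ne_zero D.x_notMem_span_one one_ne_zero (d := D.x) ?_
  rw [← Ideal.mem_bot, ← h, RingHom.mem_ker]
  simp

theorem invertible_ker_diag₁₁ :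
    Module.Invertible (D.A₁ ⊗[k] D.A₁)
      (RingHom.ker (Algebra.TensorProduct.lmul' k (S := D.A₁))) := by
  have := isDomain_tensor k D.A₁ D.A₁
  refine invertible_ker _ (fun a => ⟨a ⊗ₜ 1, by simp⟩) D.not_isField_A₁ fun h =>
    tmul_sub_one_tmul_ne_zero D.y_notMem_span_one one_ne_zero (d := D.y) ?_
  rw [← Ideal.mem_bot, ← h, RingHom.mem_ker]
  simp

end CurveData

end Fermat.Agent.Jac
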