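import Fermat.Agent.Jac.Diagonal.Ideals
import Fermat.Agent.Jac.Diagonal.CurveKernels
import Mathlib.RingTheory.Localization.InvSubmonoid

/-!
# The diagonal line data on the two charts of the parameter curve
-/

set_option autoImplicit false

universe u

set_option linter.unusedSectionVars false

noncomputable section

open TensorProduct

namespace Fermat.Agent.Jac

variable {k : Type u} [Field k]

/-- Extension of a kernel along a map which is surjective up to units. -/
theorem map_ker_of_exists_unit {S T Z : Type u} [CommRing S] [CommRing T] [CommRing Z]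
    (f : S →+* T) (ψ : T →+* Z) (χ : S →+* Z) (hχ : ψ.comp f = χ)
    (hf : ∀ z, ∃ u a, IsUnit u ∧ u * z = f a) :
    (RingHom.ker χ).map f = RingHom.ker ψ := by
  subst hχ
  refine le_antisymm (Ideal.map_le_iff_le_comap.mpr fun a ha => ha) fun z hz => ?_
  obtain ⟨u, a, hu, hua⟩ := hf z
  have ha : a ∈ RingHom.ker (ψ.comp f) := by
    rw [RingHom.mem_ker, RingHom.comp_apply, ← hua, map_mul, RingHom.mem_ker.mp hz, mul_zero]
  rw [← Ideal.unit_mul_mem_iff_mem _ hu, hua]
  exact Ideal.mem_map_of_mem f ha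

theorem exists_unit_mul_of_away {S T : Type u} [CommRing S] [CommRing T] [Algebra S T] (s : S)
    [IsLocalization.Away s T] (z : T) : ∃ u a, IsUnit u ∧ u * z = algebraMap S T a := by
  obtain ⟨n, a, ha⟩ := IsLocalization.Away.surj s z
  exact ⟨_, a, (IsLocalization.Away.algebraMap_isUnit (S := T) s).pow n, (mul_comm _ _).trans ha⟩

theorem exists_unit_mul_map {S T Y : Type u} [CommRing S] [Algebra k S] [CommRing T] [Algebra k T]
    [CommRing Y] [Algebra k Y] (g : S →ₐ[k] T) (hg : ∀ b, ∃ s a, IsUnit (g s) ∧ g s * b = g a)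
    (z : T ⊗[k] Y) : ∃ u a, IsUnit u ∧
      u * z = (Algebra.TensorProduct.map g (AlgHom.id k Y)).toRingHom a := by
  suffices ∃ s a, IsUnit (g s) ∧
      (g s ⊗ₜ[k] (1 : Y)) * z = Algebra.TensorProduct.map g (AlgHom.id k Y) a by
    obtain ⟨s, a, hs, ha⟩ := this
    exact ⟨_, a, hs.map (Algebra.TensorProduct.includeLeft : T →ₐ[k] T ⊗[k] Y), ha⟩
  induction z using TensorProduct.induction_on with
  | zero => exact ⟨1, 0, by simp, by simp⟩
  | tmul b y =>
    obtain ⟨s, a, hs, ha⟩ := hg b
    exact ⟨s, a ⊗ₜ y, hs, by simp [ha]⟩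
  | add z w hz hw =>
    obtain ⟨s, a, hs, ha⟩ := hz
    obtain ⟨t, b, ht, hb⟩ := hw
    refine ⟨s * t, (t ⊗ₜ 1) * a + (s ⊗ₜ 1) * b, by rw [map_mul]; exact hs.mul ht, ?_⟩
    have h : g (s * t) ⊗ₜ[k] (1 : Y) = (g s ⊗ₜ[k] 1) * (g t ⊗ₜ[k] 1) := by simp
    rw [map_add, map_mul _ (t ⊗ₜ[k] (1 : Y)), map_mul _ (s ⊗ₜ[k] (1 : Y)), ← ha, ← hb, h]
    simp only [Algebra.TensorProduct.map_tmul, AlgHom.id_apply]
    ring

namespace CurveData

variable (D : CurveData.{u} k)

theorem exists_unit_i₀ (b : D.B) : ∃ s a, IsUnit (D.i₀ s) ∧ D.i₀ s * b = D.i₀ a := by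
  obtain ⟨n, a, ha⟩ := IsLocalization.Away.surj D.x b
  refine ⟨D.x ^ n, a, ?_, ?_⟩
  · rw [map_pow]; exact (IsUnit.of_mul_eq_one _ D.xy).pow n
  · rw [map_pow, mul_comm]; exact ha

theorem exists_unit_i₁ (b : D.B) : ∃ s a, IsUnit (D.i₁ s) ∧ D.i₁ s * b = D.i₁ a := by
  obtain ⟨n, a, ha⟩ := IsLocalization.Away.surj D.y b
  refine ⟨D.y ^ n, a, ?_, ?_⟩
  · rw [map_pow]; exact (IsUnit.of_mul_eq_one _ ((mul_comm _ _).trans D.xy)).pow n
  · rw [map_pow, mul_comm]; exact ha

theorem finiteType_B : Algebra.FiniteType k D.B :=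
  have : Algebra.FiniteType D.A D.B :=
    IsLocalization.finiteType_of_monoid_fg (Submonoid.powers D.x) D.B
  Algebra.FiniteType.trans (S := D.A) inferInstance this

/-- The diagonal in `(C ∖ ε) × (C ∖ ε)`. -/
def I₀₀ : Ideal (D.AR D.A) := RingHom.ker (Algebra.TensorProduct.lmul' k (S := D.A))

/-- The diagonal in `(C ∖ ε) × (chart at ε)`. -/
def I₀₁ : Ideal (D.AR₁ D.A) := RingHom.ker D.diag₀₁

/-- The diagonal in `(chart at ε) × (C ∖ ε)`. -/
def I₁₀ : Ideal (D.AR D.A₁) := RingHom.ker D.diag₁₀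

/-- The diagonal in the square of the chart at `ε`. -/
def I₁₁ : Ideal (D.AR₁ D.A₁) := RingHom.ker (Algebra.TensorProduct.lmul' k (S := D.A₁))

/-- The graph of the inclusion of the intersection into the first chart. -/
def diagB₀ : D.AR D.B →ₐ[k] D.B :=
  Algebra.TensorProduct.lift (AlgHom.id k D.B) D.i₀ fun _ _ => Commute.all _ _

/-- The graph of the inclusion of the intersection into the second chart. -/
def diagB₁ : D.AR₁ D.B →ₐ[k] D.B :=
  Algebra.TensorProduct.lift (AlgHom.id k D.B) D.i₁ fun _ _ => Commute.all _ _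

/-- The diagonal over the intersection, first chart. -/
def IB₀ : Ideal (D.AR D.B) := RingHom.ker D.diagB₀

/-- The diagonal over the intersection, second chart. -/
def IB₁ : Ideal (D.AR₁ D.B) := RingHom.ker D.diagB₁

theorem map_I₀₀ : D.I₀₀.map (algebraMap (D.AR D.A) (D.BR D.A)) =
    D.I₀₁.map (algebraMap (D.AR₁ D.A) (D.BR D.A)) := by
  let ψ : D.BR D.A →ₐ[k] D.B :=
    Algebra.TensorProduct.lift D.i₀ (AlgHom.id k D.B) fun _ _ => Commute.all _ _
  have h0 : RingHom.ker (D.i₀.comp (Algebra.TensorProduct.lmul' k (S := D.A))).toRingHom = D.I₀₀ := by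
    ext z
    simp only [I₀₀, RingHom.mem_ker]
    exact map_eq_zero_iff D.i₀ D.i₀_injective
  rw [← h0, I₀₁]
  refine (map_ker_of_exists_unit _ ψ.toRingHom _ ?_ (exists_unit_mul_of_away (D.xR D.A))).trans
    (map_ker_of_exists_unit _ ψ.toRingHom _ ?_ (exists_unit_mul_of_away (D.yR D.A))).symm
  · refine RingHom.ext fun z => ?_
    induction z using TensorProduct.induction_on with
    | zero => simp
    | tmul r a => simp [ψ, algebraMap_AR_tmul]
    | add z w hz hw => simp only [map_add, hz, hw]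
  · refine RingHom.ext fun z => ?_
    induction z using TensorProduct.induction_on with
    | zero => simp
    | tmul r a => simp [ψ, algebraMap_AR₁_tmul, diag₀₁]
    | add z w hz hw => simp only [map_add, hz, hw]

theorem map_I₁₀ : D.I₁₀.map (algebraMap (D.AR D.A₁) (D.BR D.A₁)) =
    D.I₁₁.map (algebraMap (D.AR₁ D.A₁) (D.BR D.A₁)) := by
  let ψ : D.BR D.A₁ →ₐ[k] D.B :=
    Algebra.TensorProduct.lift D.i₁ (AlgHom.id k D.B) fun _ _ => Commute.all _ _
  have h0 : RingHom.ker (D.i₁.comp (Algebra.TensorProduct.lmul' k (S := D.A₁))).toRingHom = D.I₁₁ := by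
    ext z
    simp only [I₁₁, RingHom.mem_ker]
    exact map_eq_zero_iff D.i₁ D.i₁_injective
  rw [← h0, I₁₀]
  refine (map_ker_of_exists_unit _ ψ.toRingHom _ ?_ (exists_unit_mul_of_away (D.xR D.A₁))).trans
    (map_ker_of_exists_unit _ ψ.toRingHom _ ?_ (exists_unit_mul_of_away (D.yR D.A₁))).symm
  · refine RingHom.ext fun z => ?_
    induction z using TensorProduct.induction_on with
    | zero => simp
    | tmul r a => simp [ψ, algebraMap_AR_tmul, diag₁₀]
    | add z w hz hw => simp only [map_add, hz, hw]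
  · refine RingHom.ext fun z => ?_
    induction z using TensorProduct.induction_on with
    | zero => simp
    | tmul r a => simp [ψ, algebraMap_AR₁_tmul]
    | add z w hz hw => simp only [map_add, hz, hw]

theorem map_IB₀ : D.IB₀.map (algebraMap (D.AR D.B) (D.BR D.B)) =
    D.IB₁.map (algebraMap (D.AR₁ D.B) (D.BR D.B)) := by
  let ψ : D.BR D.B →ₐ[k] D.B := Algebra.TensorProduct.lmul' k
  refine (map_ker_of_exists_unit _ ψ.toRingHom _ ?_ (exists_unit_mul_of_away (D.xR D.B))).trans
    (map_ker_of_exists_unit _ ψ.toRingHom _ ?_ (exists_unit_mul_of_away (D.yR D.B))).symm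
  · refine RingHom.ext fun z => ?_
    induction z using TensorProduct.induction_on with
    | zero => simp
    | tmul r a => simp [ψ, algebraMap_AR_tmul, diagB₀]
    | add z w hz hw => simp only [map_add, hz, hw]
  · refine RingHom.ext fun z => ?_
    induction z using TensorProduct.induction_on with
    | zero => simp
    | tmul r a => simp [ψ, algebraMap_AR₁_tmul, diagB₁]
    | add z w hz hw => simp only [map_add, hz, hw]

variable [IsAlgClosed k]

instance invertible_I₀₀ : Module.Invertible (D.AR D.A) D.I₀₀ := D.invertible_ker_diag₀₀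

instance invertible_I₀₁ : Module.Invertible (D.AR₁ D.A) D.I₀₁ := D.invertible_ker_diag₀₁

instance invertible_I₁₀ : Module.Invertible (D.AR D.A₁) D.I₁₀ := D.invertible_ker_diag₁₀

instance invertible_I₁₁ : Module.Invertible (D.AR₁ D.A₁) D.I₁₁ := D.invertible_ker_diag₁₁

instance invertible_IB₀ : Module.Invertible (D.AR D.B) D.IB₀ := by
  have := D.isDomain_B
  have := D.isDedekindDomain_B
  have := D.finiteType_B
  have := isDomain_tensor k D.B D.A
  refine invertible_ker D.diagB₀ (fun b => ⟨b ⊗ₜ 1, by simp [diagB₀]⟩) D.not_isField_B fun h => ?_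
  refine tmul_sub_one_tmul_ne_zero (k := k) (a := D.i₀ D.x) (c := (1 : D.A)) (d := D.x) (fun hx => ?_)
    one_ne_zero ?_
  · obtain ⟨r, hr⟩ := Submodule.mem_span_singleton.mp hx
    exact D.x_notMem_span_one (Submodule.mem_span_singleton.mpr
      ⟨r, D.i₀_injective (by rw [← hr, map_smul, map_one])⟩)
  · rw [← Ideal.mem_bot, ← h, RingHom.mem_ker]
    simp [diagB₀]

instance invertible_IB₁ : Module.Invertible (D.AR₁ D.B) D.IB₁ := by
  have := D.isDomain_B
  have := D.isDedekindDomain_B
  have := D.finiteType_B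
  have := isDomain_tensor k D.B D.A₁
  refine invertible_ker D.diagB₁ (fun b => ⟨b ⊗ₜ 1, by simp [diagB₁]⟩) D.not_isField_B fun h => ?_
  refine tmul_sub_one_tmul_ne_zero (k := k) (a := D.i₁ D.y) (c := (1 : D.A₁)) (d := D.y) (fun hx => ?_)
    one_ne_zero ?_
  · obtain ⟨r, hr⟩ := Submodule.mem_span_singleton.mp hx
    exact D.y_notMem_span_one (Submodule.mem_span_singleton.mpr
      ⟨r, D.i₁_injective (by rw [← hr, map_smul, map_one])⟩)
  · rw [← Ideal.mem_bot, ← h, RingHom.mem_ker]
    simp [diagB₁]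

/-- The diagonal as a line bundle parametrised by the first chart. -/
def diag₀ : LineData D D.A := LineData.ofIdeals D.I₀₀ D.I₀₁ D.map_I₀₀

/-- The diagonal as a line bundle parametrised by the second chart. -/
def diag₁ : LineData D D.A₁ := LineData.ofIdeals D.I₁₀ D.I₁₁ D.map_I₁₀

/-- The diagonal as a line bundle parametrised by the intersection. -/
def diagB : LineData D D.B := LineData.ofIdeals D.IB₀ D.IB₁ D.map_IB₀

theorem map_I₀₀_B : D.I₀₀.map (D.mapAR D.i₀).toRingHom = D.IB₀ := by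
  have h0 : RingHom.ker (D.i₀.comp (Algebra.TensorProduct.lmul' k (S := D.A))).toRingHom = D.I₀₀ := by
    ext z
    simp only [I₀₀, RingHom.mem_ker]
    exact map_eq_zero_iff D.i₀ D.i₀_injective
  rw [← h0]
  refine map_ker_of_exists_unit _ D.diagB₀.toRingHom _ ?_
    (exists_unit_mul_map D.i₀ D.exists_unit_i₀)
  refine RingHom.ext fun z => ?_
  induction z using TensorProduct.induction_on with
  | zero => simp
  | tmul r a => simp [mapAR, diagB₀]
  | add z w hz hw => simp only [map_add, hz, hw]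

theorem map_I₀₁_B : D.I₀₁.map (D.mapAR₁ D.i₀).toRingHom = D.IB₁ := by
  refine map_ker_of_exists_unit _ D.diagB₁.toRingHom _ ?_
    (exists_unit_mul_map D.i₀ D.exists_unit_i₀)
  refine RingHom.ext fun z => ?_
  induction z using TensorProduct.induction_on with
  | zero => simp
  | tmul r a => simp [mapAR₁, diagB₁, diag₀₁]
  | add z w hz hw => simp only [map_add, hz, hw]

theorem map_I₁₀_B : D.I₁₀.map (D.mapAR D.i₁).toRingHom = D.IB₀ := by
  refine map_ker_of_exists_unit _ D.diagB₀.toRingHom _ ?_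
    (exists_unit_mul_map D.i₁ D.exists_unit_i₁)
  refine RingHom.ext fun z => ?_
  induction z using TensorProduct.induction_on with
  | zero => simp
  | tmul r a => simp [mapAR, diagB₀, diag₁₀]
  | add z w hz hw => simp only [map_add, hz, hw]

theorem map_I₁₁_B : D.I₁₁.map (D.mapAR₁ D.i₁).toRingHom = D.IB₁ := by
  have h0 : RingHom.ker (D.i₁.comp (Algebra.TensorProduct.lmul' k (S := D.A₁))).toRingHom = D.I₁₁ := by
    ext z
    simp only [I₁₁, RingHom.mem_ker]
    exact map_eq_zero_iff D.i₁ D.i₁_injective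
  rw [← h0]
  refine map_ker_of_exists_unit _ D.diagB₁.toRingHom _ ?_
    (exists_unit_mul_map D.i₁ D.exists_unit_i₁)
  refine RingHom.ext fun z => ?_
  induction z using TensorProduct.induction_on with
  | zero => simp
  | tmul r a => simp [mapAR₁, diagB₁]
  | add z w hz hw => simp only [map_add, hz, hw]

/-- The restriction of `diag₀` to the intersection. -/
def pullback_diag₀_B : LineData.Pullback D.i₀ D.diag₀ D.diagB :=
  LineData.pullbackIdeals D.map_I₀₀ D.map_IB₀ D.map_I₀₀_B D.map_I₀₁_B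

/-- The restriction of `diag₁` to the intersection. -/
def pullback_diag₁_B : LineData.Pullback D.i₁ D.diag₁ D.diagB :=
  LineData.pullbackIdeals D.map_I₁₀ D.map_IB₀ D.map_I₁₀_B D.map_I₁₁_B

end CurveData

end Fermat.Agent.Jac
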