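import Fermat.Agent.Jac.Alg.Natural
import Mathlib.RingTheory.Flat.Localization
import Mathlib.LinearAlgebra.TensorProduct.Tower

/-!
# Line data given by invertible ideals
-/

set_option autoImplicit false

universe u

noncomputable section

open TensorProduct

namespace Fermat.Agent.Jac

variable {k : Type u} [Field k] {D : CurveData.{u} k}
variable {R R' : Type u} [CommRing R] [Algebra k R] [CommRing R'] [Algebra k R']

namespace CurveData

theorem flat₀ : Module.Flat (D.AR R) (D.BR R) :=
  IsLocalization.flat (D.BR R) (Submonoid.powers (D.xR R))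

theorem flat₁ : Module.Flat (D.AR₁ R) (D.BR R) :=
  IsLocalization.flat (D.BR R) (Submonoid.powers (D.yR R))

end CurveData

/-- The multiplication `S' ⊗ I → S'`. -/
def idealEmb {S : Type u} (S' : Type u) [CommRing S] [CommRing S'] [Algebra S S'] (I : Ideal S) :
    S' ⊗[S] I →ₗ[S'] S' :=
  ((Algebra.linearMap S S').comp I.subtype).liftBaseChange S'

theorem idealEmb_tmul {S S' : Type u} [CommRing S] [CommRing S'] [Algebra S S'] (I : Ideal S)
    (b : S') (i : I) : idealEmb S' I (b ⊗ₜ i) = b * algebraMap S S' i := rfl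

theorem idealEmb_injective {S S' : Type u} [CommRing S] [CommRing S'] [Algebra S S']
    [Module.Flat S S'] (I : Ideal S) : Function.Injective (idealEmb S' I) := by
  have h : ∀ z, idealEmb S' I z = TensorProduct.rid S S' (I.subtype.lTensor S' z) := fun z => by
    induction z using TensorProduct.induction_on with
    | zero => simp
    | tmul b i => simp [idealEmb_tmul, Algebra.smul_def, mul_comm]
    | add a b ha hb => simp [ha, hb]
  rw [show ⇑(idealEmb S' I) = TensorProduct.rid S S' ∘ I.subtype.lTensor S' from funext h]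
  exact (TensorProduct.rid S S').injective.comp
    (Module.Flat.lTensor_preserves_injective_linearMap _ I.subtype_injective)

theorem range_idealEmb {S S' : Type u} [CommRing S] [CommRing S'] [Algebra S S'] (I : Ideal S) :
    LinearMap.range (idealEmb S' I) = I.map (algebraMap S S') := by
  rw [idealEmb, LinearMap.range_liftBaseChange, Ideal.map]
  congr 1
  ext z
  simp

namespace LineData

variable (I : Ideal (D.AR R)) (J : Ideal (D.AR₁ R)) [Module.Invertible (D.AR R) I]
  [Module.Invertible (D.AR₁ R) J]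

/-- Identification of the restrictions of two ideals with equal extensions. -/
def idealGlue (h : I.map (algebraMap (D.AR R) (D.BR R)) = J.map (algebraMap (D.AR₁ R) (D.BR R))) :
    (D.BR R ⊗[D.AR R] I) ≃ₗ[D.BR R] (D.BR R ⊗[D.AR₁ R] J) :=
  haveI := D.flat₀ (R := R)
  haveI := D.flat₁ (R := R)
  (LinearEquiv.ofInjective (idealEmb (D.BR R) I) (idealEmb_injective I)).trans
    ((LinearEquiv.ofEq _ _ (by rw [range_idealEmb, range_idealEmb, h])).trans
      (LinearEquiv.ofInjective (idealEmb (D.BR R) J) (idealEmb_injective J)).symm)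

/-- The line bundle of two invertible ideals with equal extensions to the intersection. -/
def ofIdeals (h : I.map (algebraMap (D.AR R) (D.BR R)) = J.map (algebraMap (D.AR₁ R) (D.BR R))) :
    LineData D R where
  M := I
  N := J
  glue := idealGlue I J h

variable {I J}
variable {h : I.map (algebraMap (D.AR R) (D.BR R)) = J.map (algebraMap (D.AR₁ R) (D.BR R))}

/-- The relation of `ofIdeals` is equality on the intersection. -/
theorem ofIdeals_rel {j : ℕ} {m : I} {n : J} :
    (ofIdeals I J h).Rel j m n ↔
      algebraMap (D.AR₁ R) (D.BR R) (D.yR R) ^ j * algebraMap (D.AR R) (D.BR R) (m : D.AR R) =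
        algebraMap (D.AR₁ R) (D.BR R) (n : D.AR₁ R) := by
  have := D.flat₁ (R := R)
  have := D.flat₀ (R := R)
  have hglue : ∀ z, idealEmb (D.BR R) J (idealGlue I J h z) = idealEmb (D.BR R) I z := by
    intro z
    simp only [idealGlue, LinearEquiv.trans_apply]
    have := (LinearEquiv.ofInjective (idealEmb (D.BR R) J) (idealEmb_injective J)).apply_symm_apply
      ((LinearEquiv.ofEq _ _ (by rw [range_idealEmb, range_idealEmb, h]))
        (LinearEquiv.ofInjective (idealEmb (D.BR R) I) (idealEmb_injective I) z))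
    exact congrArg Subtype.val this
  have hs : ∀ (b : D.BR R) (z w : D.BR R ⊗[D.AR₁ R] J),
      b • z = w ↔ b * idealEmb (D.BR R) J z = idealEmb (D.BR R) J w := fun b z w => by
    rw [← (idealEmb_injective (S' := D.BR R) J).eq_iff, map_smul, smul_eq_mul]
  refine (hs _ (idealGlue I J h (1 ⊗ₜ m)) ((1 : D.BR R) ⊗ₜ[D.AR₁ R] n)).trans ?_
  rw [hglue, idealEmb_tmul, idealEmb_tmul, one_mul, one_mul]

/-- The relation of the trivial line bundle is equality on the intersection. -/
theorem unit_rel {j : ℕ} {m : D.AR R} {n : D.AR₁ R} :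
    (unit (D := D) (R := R)).Rel j m n ↔
      algebraMap (D.AR₁ R) (D.BR R) (D.yR R) ^ j * algebraMap (D.AR R) (D.BR R) m =
        algebraMap (D.AR₁ R) (D.BR R) n := by
  let e₁ := TensorProduct.AlgebraTensorModule.rid (D.AR₁ R) (D.BR R) (D.BR R)
  have hs : ∀ (b : D.BR R) (z w : D.BR R ⊗[D.AR₁ R] D.AR₁ R),
      b • z = w ↔ b * e₁ z = e₁ w := fun b z w => by
    rw [← e₁.injective.eq_iff, map_smul, smul_eq_mul]
  refine (hs _ (((TensorProduct.AlgebraTensorModule.rid (D.AR R) (D.BR R) (D.BR R)).trans e₁.symm)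
    (1 ⊗ₜ m)) ((1 : D.BR R) ⊗ₜ[D.AR₁ R] n)).trans ?_
  rw [LinearEquiv.trans_apply, LinearEquiv.apply_symm_apply, AlgebraTensorModule.rid_tmul,
    AlgebraTensorModule.rid_tmul, ← Algebra.algebraMap_eq_smul_one, ← Algebra.algebraMap_eq_smul_one]

/-- The inclusion of `ofIdeals` into the trivial line bundle respects the relations. -/
theorem ofIdeals_rel_iff_unit {j : ℕ} {m : I} {n : J} :
    (ofIdeals I J h).Rel j m n ↔ (unit (D := D) (R := R)).Rel j (m : D.AR R) (n : D.AR₁ R) :=
  ofIdeals_rel.trans unit_rel.symm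

variable {φ : R →ₐ[k] R'} {I' : Ideal (D.AR R')} {J' : Ideal (D.AR₁ R')}
  [Module.Invertible (D.AR R') I'] [Module.Invertible (D.AR₁ R') J']
  {h' : I'.map (algebraMap (D.AR R') (D.BR R')) = J'.map (algebraMap (D.AR₁ R') (D.BR R'))}

/-- Restriction of a ring map to ideals. -/
def idealRestrict {S S' : Type u} [CommRing S] [CommRing S'] (f : S →+* S') {A : Ideal S}
    {A' : Ideal S'} (hA : A.map f = A') : A →ₛₗ[f] A' where
  toFun a := ⟨f a, hA ▸ Ideal.mem_map_of_mem f a.2⟩
  map_add' _ _ := Subtype.ext (map_add f _ _)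
  map_smul' _ _ := Subtype.ext (map_mul f _ _)

theorem span_idealRestrict {S S' : Type u} [CommRing S] [CommRing S'] (f : S →+* S') {A : Ideal S}
    {A' : Ideal S'} (hA : A.map f = A') :
    Submodule.span S' (Set.range (idealRestrict f hA)) = ⊤ := by
  apply Submodule.map_injective_of_injective (f := A'.subtype) A'.subtype_injective
  rw [Submodule.map_top, Submodule.range_subtype, Submodule.map_span, ← Set.range_comp]
  refine le_antisymm (Submodule.span_le.mpr ?_) ?_
  · rintro _ ⟨a, rfl⟩
    exact hA ▸ Ideal.mem_map_of_mem f a.2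
  · refine le_of_eq_of_le hA.symm (Ideal.span_le.mpr ?_)
    rintro _ ⟨a, ha, rfl⟩
    exact Submodule.subset_span ⟨⟨a, ha⟩, rfl⟩

variable (h h')

/-- Pullback of ideals. -/
def pullbackIdeals (hI : I.map (D.mapAR φ).toRingHom = I')
    (hJ : J.map (D.mapAR₁ φ).toRingHom = J') :
    Pullback φ (ofIdeals I J h) (ofIdeals I' J' h') where
  gM := idealRestrict _ hI
  gN := idealRestrict _ hJ
  spanM := span_idealRestrict _ hI
  spanN := span_idealRestrict _ hJ
  rel j m n hmn := by
    refine ofIdeals_rel.mpr ?_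
    have := congrArg (D.mapBR φ) (ofIdeals_rel.mp hmn)
    rwa [map_mul, map_pow, CurveData.mapBR_algebraMap₁, CurveData.mapBR_algebraMap₁,
      CurveData.mapBR_algebraMap₀, CurveData.mapAR₁_yR] at this

end LineData

end Fermat.Agent.Jac
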