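import Fermat.Agent.Jac.Diagonal.Diag
import Mathlib.RingTheory.DedekindDomain.Ideal.Lemmas

/-!
# The line data of a `k`-point and zeros of sections
-/

set_option autoImplicit false

universe u

set_option linter.overlappingInstances false

noncomputable section

open TensorProduct

namespace Fermat.Agent.Jac

variable {k : Type u} [Field k] {D : CurveData.{u} k}

/-- A nonzero ideal of a Dedekind domain is invertible. -/
theorem invertible_of_isDedekindDomain {S : Type u} [CommRing S] [IsDomain S] [IsDedekindDomain S]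
    (I : Ideal S) (hI : I ≠ ⊥) : Module.Invertible S I := by
  let K := FractionRing S
  let f : S →ₗ[S] K := Algebra.linearMap S K
  let F : FractionalIdeal (nonZeroDivisors S) K := I
  have hF : F ≠ 0 := fun h => hI (FractionalIdeal.coeIdeal_eq_zero.mp h)
  have h1 : (F : Submodule S K) * ((F⁻¹ : FractionalIdeal (nonZeroDivisors S) K) : Submodule S K) = 1 := by
    rw [← FractionalIdeal.coe_mul, mul_inv_cancel₀ hF, FractionalIdeal.coe_one]
  let U : (Submodule S K)ˣ := ⟨_, _, h1, (mul_comm _ _).trans h1⟩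
  have : FaithfulSMul S K :=
    (faithfulSMul_iff_algebraMap_injective S K).mpr (IsFractionRing.injective S K)
  have : Module.Invertible S (U : Submodule S K) := Module.Invertible.left (Submodule.tensorInvEquiv U)
  let e : (U : Submodule S K) ≃ₗ[S] I :=
    (Submodule.equivMapOfInjective f (IsFractionRing.injective S K) I).symm
  exact @Module.Invertible.congr S (U : Submodule S K) I _ _ _ _ _ this e

theorem isDedekindDomain_of_ringEquiv {S T : Type u} [CommRing S] [IsDomain S] [IsDedekindDomain S]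
    [CommRing T] (e : S ≃+* T) : IsDedekindDomain T := by
  let _ : Algebra S T := e.toRingHom.toAlgebra
  have : IsDomain T := e.symm.toMulEquiv.isDomain
  have : IsLocalization (⊥ : Submonoid S) S :=
    IsLocalization.self fun _ hx => by rw [Submonoid.mem_bot] at hx; subst hx; exact isUnit_one
  have : IsLocalization (⊥ : Submonoid S) T :=
    IsLocalization.isLocalization_of_algEquiv ⊥ (AlgEquiv.ofRingEquiv (f := e) fun _ => rfl)
  exact IsLocalization.isDedekindDomain S (M := ⊥) bot_le T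

/-- An element of an invertible module generates it or vanishes at a maximal ideal. -/
theorem span_eq_top_or_exists_mem {S M : Type u} [CommRing S] [AddCommGroup M] [Module S M]
    [Module.Invertible S M] (m : M) :
    (Function.Bijective fun s : S => s • m) ∨
      ∃ q : Ideal S, q.IsMaximal ∧ m ∈ q • (⊤ : Submodule S M) := by
  let ev : Module.Dual S M →ₗ[S] S :=
    { toFun := fun f => f m, map_add' := fun _ _ => rfl, map_smul' := fun _ _ => rfl }
  by_cases h : LinearMap.range ev = ⊤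
  · left
    obtain ⟨f, hf⟩ : (1 : S) ∈ LinearMap.range ev := h ▸ Submodule.mem_top
    replace hf : f m = 1 := hf
    have hsurj : Function.Surjective f := fun r => ⟨r • m, by simp [hf]⟩
    have hbij := Module.Invertible.bijective_of_surjective hsurj
    refine ⟨fun a b hab => ?_, fun v => ⟨f v, hbij.1 (by simp [hf])⟩⟩
    simpa [hf] using congrArg f hab
  · right
    obtain ⟨q, hq, hle⟩ := Ideal.exists_le_maximal (LinearMap.range ev) h
    refine ⟨q, hq, ?_⟩
    obtain ⟨s, hs⟩ := Module.projective_def'.mp (inferInstance : Module.Projective S M)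
    have hm := LinearMap.congr_fun hs m
    rw [LinearMap.comp_apply, LinearMap.id_apply, Finsupp.linearCombination_apply] at hm
    rw [← hm]
    refine Submodule.sum_mem _ fun i _ => Submodule.smul_mem_smul ?_ Submodule.mem_top
    exact hle ⟨(Finsupp.lapply i).comp s, rfl⟩

namespace CurveData

variable (D)

/-- Functions on `(C ∖ ε) × Spec R` vanishing along the constant section of a point. -/
def ptKer₀ (R : Type u) [CommRing R] [Algebra k R] (φ : D.A →ₐ[k] k) : Ideal (D.AR R) :=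
  RingHom.ker (Algebra.TensorProduct.lift (AlgHom.id k R) ((Algebra.ofId k R).comp φ)
    fun _ _ => Commute.all _ _)

/-- Functions on the chart at `ε` times `Spec R` vanishing along the constant section of a point. -/
def ptKer₁ (R : Type u) [CommRing R] [Algebra k R] (φ : D.A₁ →ₐ[k] k) : Ideal (D.AR₁ R) :=
  RingHom.ker (Algebra.TensorProduct.lift (AlgHom.id k R) ((Algebra.ofId k R).comp φ)
    fun _ _ => Commute.all _ _)

theorem exists_tmul_one_right {S : Type u} [CommRing S] [Algebra k S] (z : k ⊗[k] S) :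
    ∃ a : S, z = 1 ⊗ₜ a :=
  ⟨TensorProduct.lid k S z, (TensorProduct.lid k S).injective (by simp)⟩

/-- A point of `C ∖ ε`, first chart. -/
def ptI₀ (φ : D.A →ₐ[k] k) : Ideal (D.AR k) := D.I₀₀.map (D.mapAR φ).toRingHom

/-- A point of `C ∖ ε`, second chart. -/
def ptJ₀ (φ : D.A →ₐ[k] k) : Ideal (D.AR₁ k) := D.I₀₁.map (D.mapAR₁ φ).toRingHom

/-- A point of the chart at `ε`, first chart. -/
def ptI₁ (φ : D.A₁ →ₐ[k] k) : Ideal (D.AR k) := D.I₁₀.map (D.mapAR φ).toRingHom

/-- A point of the chart at `ε`, second chart. -/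
def ptJ₁ (φ : D.A₁ →ₐ[k] k) : Ideal (D.AR₁ k) := D.I₁₁.map (D.mapAR₁ φ).toRingHom

theorem ptI₀_eq (φ : D.A →ₐ[k] k) : D.ptI₀ φ = D.ptKer₀ k φ := by
  refine le_antisymm (Ideal.map_le_iff_le_comap.mpr fun z hz => ?_) fun z hz => ?_
  · have h : ∀ w : D.AR D.A, Algebra.TensorProduct.lift (AlgHom.id k k)
        ((Algebra.ofId k k).comp φ) (fun _ _ => Commute.all _ _) (D.mapAR φ w) =
          φ (Algebra.TensorProduct.lmul' k w) := fun w => by
      induction w using TensorProduct.induction_on with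
      | zero => simp
      | tmul a b => simp [mapAR]
      | add x y hx hy => simp only [map_add, hx, hy]
    rw [Ideal.mem_comap, ptKer₀, RingHom.mem_ker]
    exact (h z).trans (by rw [RingHom.mem_ker.mp hz, map_zero])
  · obtain ⟨a, rfl⟩ := exists_tmul_one_right z
    have ha : φ a = 0 := by simpa [ptKer₀] using hz
    have hw : (1 : D.A) ⊗ₜ[k] a - a ⊗ₜ[k] 1 ∈ D.I₀₀ := by
      simp [I₀₀]
    have := Ideal.mem_map_of_mem (D.mapAR φ).toRingHom hw
    simpa [mapAR, ha, ptI₀] using this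

theorem ptJ₁_eq (φ : D.A₁ →ₐ[k] k) : D.ptJ₁ φ = D.ptKer₁ k φ := by
  refine le_antisymm (Ideal.map_le_iff_le_comap.mpr fun z hz => ?_) fun z hz => ?_
  · have h : ∀ w : D.AR₁ D.A₁, Algebra.TensorProduct.lift (AlgHom.id k k)
        ((Algebra.ofId k k).comp φ) (fun _ _ => Commute.all _ _) (D.mapAR₁ φ w) =
          φ (Algebra.TensorProduct.lmul' k w) := fun w => by
      induction w using TensorProduct.induction_on with
      | zero => simp
      | tmul a b => simp [mapAR₁]
      | add x y hx hy => simp only [map_add, hx, hy]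
    rw [Ideal.mem_comap, ptKer₁, RingHom.mem_ker]
    exact (h z).trans (by rw [RingHom.mem_ker.mp hz, map_zero])
  · obtain ⟨a, rfl⟩ := exists_tmul_one_right z
    have ha : φ a = 0 := by simpa [ptKer₁] using hz
    have hw : (1 : D.A₁) ⊗ₜ[k] a - a ⊗ₜ[k] 1 ∈ D.I₁₁ := by
      simp [I₁₁]
    have := Ideal.mem_map_of_mem (D.mapAR₁ φ).toRingHom hw
    simpa [mapAR₁, ha, ptJ₁] using this

theorem tmul_y_sub_one_mem (φ : D.A →ₐ[k] k) :
    (φ D.x) ⊗ₜ[k] D.y - 1 ∈ D.ptJ₀ φ := by
  have hw : D.x ⊗ₜ[k] D.y - 1 ∈ D.I₀₁ := by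
    rw [I₀₁, RingHom.mem_ker, map_sub, map_one, diag₀₁, Algebra.TensorProduct.lift_tmul, D.xy,
      sub_self]
  have := Ideal.mem_map_of_mem (D.mapAR₁ φ).toRingHom hw
  rw [map_sub, map_one] at this
  exact this

theorem tmul_x_sub_one_mem (φ : D.A₁ →ₐ[k] k) :
    (φ D.y) ⊗ₜ[k] D.x - 1 ∈ D.ptI₁ φ := by
  have hw : D.y ⊗ₜ[k] D.x - 1 ∈ D.I₁₀ := by
    rw [I₁₀, RingHom.mem_ker, map_sub, map_one, diag₁₀, Algebra.TensorProduct.lift_tmul, mul_comm,
      D.xy, sub_self]
  have := Ideal.mem_map_of_mem (D.mapAR φ).toRingHom hw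
  rw [map_sub, map_one] at this
  exact this

theorem map_eq_of_map {R R' : Type u} [CommRing R] [Algebra k R] [CommRing R'] [Algebra k R']
    (φ : R →ₐ[k] R') {I : Ideal (D.AR R)} {J : Ideal (D.AR₁ R)}
    (h : I.map (algebraMap (D.AR R) (D.BR R)) = J.map (algebraMap (D.AR₁ R) (D.BR R))) :
    (I.map (D.mapAR φ).toRingHom).map (algebraMap (D.AR R') (D.BR R')) =
      (J.map (D.mapAR₁ φ).toRingHom).map (algebraMap (D.AR₁ R') (D.BR R')) := by
  have h0 : (algebraMap (D.AR R') (D.BR R')).comp (D.mapAR φ).toRingHom =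
      (D.mapBR φ).toRingHom.comp (algebraMap (D.AR R) (D.BR R)) :=
    RingHom.ext fun z => (mapBR_algebraMap₀ φ z).symm
  have h1 : (algebraMap (D.AR₁ R') (D.BR R')).comp (D.mapAR₁ φ).toRingHom =
      (D.mapBR φ).toRingHom.comp (algebraMap (D.AR₁ R) (D.BR R)) :=
    RingHom.ext fun z => (mapBR_algebraMap₁ φ z).symm
  rw [Ideal.map_map, Ideal.map_map, h0, h1, ← Ideal.map_map, h, Ideal.map_map]

theorem map_ptI₀ (φ : D.A →ₐ[k] k) : (D.ptI₀ φ).map (algebraMap (D.AR k) (D.BR k)) =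
    (D.ptJ₀ φ).map (algebraMap (D.AR₁ k) (D.BR k)) :=
  D.map_eq_of_map φ D.map_I₀₀

theorem map_ptI₁ (φ : D.A₁ →ₐ[k] k) : (D.ptI₁ φ).map (algebraMap (D.AR k) (D.BR k)) =
    (D.ptJ₁ φ).map (algebraMap (D.AR₁ k) (D.BR k)) :=
  D.map_eq_of_map φ D.map_I₁₀

theorem isDomain_AR : IsDomain (D.AR k) :=
  (Algebra.TensorProduct.lid k D.A).toRingEquiv.toMulEquiv.isDomain

theorem isDomain_AR₁ : IsDomain (D.AR₁ k) :=
  (Algebra.TensorProduct.lid k D.A₁).toRingEquiv.toMulEquiv.isDomain

theorem invertible_ideal_AR {I : Ideal (D.AR k)} (hI : I ≠ ⊥) : Module.Invertible (D.AR k) I :=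
  have := D.isDomain_AR
  have := isDedekindDomain_of_ringEquiv (Algebra.TensorProduct.lid k D.A).toRingEquiv.symm
  invertible_of_isDedekindDomain I hI

theorem invertible_ideal_AR₁ {I : Ideal (D.AR₁ k)} (hI : I ≠ ⊥) : Module.Invertible (D.AR₁ k) I :=
  have := D.isDomain_AR₁
  have := isDedekindDomain_of_ringEquiv (Algebra.TensorProduct.lid k D.A₁).toRingEquiv.symm
  invertible_of_isDedekindDomain I hI

instance invertible_ptI₀ (φ : D.A →ₐ[k] k) : Module.Invertible (D.AR k) (D.ptI₀ φ) :=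
  D.invertible_ideal_AR fun h => by
    have hw : D.x ⊗ₜ[k] (1 : D.A) - (1 : D.A) ⊗ₜ[k] D.x ∈ D.I₀₀ := by simp [I₀₀]
    have h1 := Ideal.mem_map_of_mem (D.mapAR φ).toRingHom hw
    rw [show D.I₀₀.map (D.mapAR φ).toRingHom = ⊥ from h, Ideal.mem_bot] at h1
    have h2 : φ D.x • (1 : D.A) = D.x := by
      simpa [mapAR, sub_eq_zero] using congrArg (Algebra.TensorProduct.lid k D.A) h1
    exact D.x_notMem_span_one (Submodule.mem_span_singleton.mpr ⟨_, h2⟩)

instance invertible_ptJ₀ (φ : D.A →ₐ[k] k) : Module.Invertible (D.AR₁ k) (D.ptJ₀ φ) :=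
  D.invertible_ideal_AR₁ fun h => by
    have h1 := D.tmul_y_sub_one_mem φ
    rw [h, Ideal.mem_bot] at h1
    have h2 : φ D.x • D.y = 1 := by
      simpa [sub_eq_zero] using congrArg (Algebra.TensorProduct.lid k D.A₁) h1
    refine D.y_notMem_span_one (Submodule.mem_span_singleton.mpr ⟨(φ D.x)⁻¹, ?_⟩)
    rw [← h2, inv_smul_smul₀]
    rintro h0
    rw [h0, zero_smul] at h2
    exact zero_ne_one h2

instance invertible_ptI₁ (φ : D.A₁ →ₐ[k] k) : Module.Invertible (D.AR k) (D.ptI₁ φ) :=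
  D.invertible_ideal_AR fun h => by
    have h1 := D.tmul_x_sub_one_mem φ
    rw [h, Ideal.mem_bot] at h1
    have h2 : φ D.y • D.x = 1 := by
      simpa [sub_eq_zero] using congrArg (Algebra.TensorProduct.lid k D.A) h1
    refine D.x_notMem_span_one (Submodule.mem_span_singleton.mpr ⟨(φ D.y)⁻¹, ?_⟩)
    rw [← h2, inv_smul_smul₀]
    rintro h0
    rw [h0, zero_smul] at h2
    exact zero_ne_one h2

instance invertible_ptJ₁ (φ : D.A₁ →ₐ[k] k) : Module.Invertible (D.AR₁ k) (D.ptJ₁ φ) :=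
  D.invertible_ideal_AR₁ fun h => by
    have hw : D.y ⊗ₜ[k] (1 : D.A₁) - (1 : D.A₁) ⊗ₜ[k] D.y ∈ D.I₁₁ := by simp [I₁₁]
    have h1 := Ideal.mem_map_of_mem (D.mapAR₁ φ).toRingHom hw
    rw [show D.I₁₁.map (D.mapAR₁ φ).toRingHom = ⊥ from h, Ideal.mem_bot] at h1
    have h2 : φ D.y • (1 : D.A₁) = D.y := by
      simpa [mapAR₁, sub_eq_zero] using congrArg (Algebra.TensorProduct.lid k D.A₁) h1
    exact D.y_notMem_span_one (Submodule.mem_span_singleton.mpr ⟨_, h2⟩)

/-- The line data of a point of `C ∖ ε`. -/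
def pointData₀ (φ : D.A →ₐ[k] k) : LineData D k :=
  LineData.ofIdeals (D.ptI₀ φ) (D.ptJ₀ φ) (D.map_ptI₀ φ)

/-- The line data of a point of the chart at `ε`. -/
def pointData₁ (φ : D.A₁ →ₐ[k] k) : LineData D k :=
  LineData.ofIdeals (D.ptI₁ φ) (D.ptJ₁ φ) (D.map_ptI₁ φ)

/-- The fibre of the diagonal at a point. -/
def pullback_diag₀_point [IsAlgClosed k] (φ : D.A →ₐ[k] k) :
    LineData.Pullback φ D.diag₀ (D.pointData₀ φ) :=
  LineData.pullbackIdeals D.map_I₀₀ (D.map_ptI₀ φ) rfl rfl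

/-- The fibre of the diagonal at a point. -/
def pullback_diag₁_point [IsAlgClosed k] (φ : D.A₁ →ₐ[k] k) :
    LineData.Pullback φ D.diag₁ (D.pointData₁ φ) :=
  LineData.pullbackIdeals D.map_I₁₀ (D.map_ptI₁ φ) rfl rfl

theorem exists_ptKer₀_eq [IsAlgClosed k] (q : Ideal (D.AR k)) [q.IsMaximal] :
    ∃ φ : D.A →ₐ[k] k, D.ptKer₀ k φ = q := by
  have := finiteType_tensor (k := k) (X := k) (Y := D.A)
  let e := RingEquiv.ofBijective (algebraMap k (D.AR k ⧸ q)) (quotient_bijective q)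
  let ε : D.AR k →ₐ[k] k :=
    { (e.symm : (D.AR k ⧸ q) →+* k).comp (Ideal.Quotient.mk q) with
      commutes' := fun r => e.symm_apply_apply r }
  refine ⟨ε.comp Algebra.TensorProduct.includeRight, ?_⟩
  ext z
  obtain ⟨a, rfl⟩ := exists_tmul_one_right z
  simp only [ptKer₀, RingHom.mem_ker, Algebra.TensorProduct.lift_tmul, map_one, one_mul,
    AlgHom.comp_apply, Algebra.ofId_apply, Algebra.algebraMap_self, RingHom.id_apply,
    Algebra.TensorProduct.includeRight_apply]
  show e.symm (Ideal.Quotient.mk q (1 ⊗ₜ a)) = 0 ↔ _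
  rw [map_eq_zero_iff e.symm e.symm.injective, Ideal.Quotient.eq_zero_iff_mem]

theorem exists_ptKer₁_eq [IsAlgClosed k] (q : Ideal (D.AR₁ k)) [q.IsMaximal] :
    ∃ φ : D.A₁ →ₐ[k] k, D.ptKer₁ k φ = q := by
  have := finiteType_tensor (k := k) (X := k) (Y := D.A₁)
  let e := RingEquiv.ofBijective (algebraMap k (D.AR₁ k ⧸ q)) (quotient_bijective q)
  let ε : D.AR₁ k →ₐ[k] k :=
    { (e.symm : (D.AR₁ k ⧸ q) →+* k).comp (Ideal.Quotient.mk q) with
      commutes' := fun r => e.symm_apply_apply r }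
  refine ⟨ε.comp Algebra.TensorProduct.includeRight, ?_⟩
  ext z
  obtain ⟨a, rfl⟩ := exists_tmul_one_right z
  simp only [ptKer₁, RingHom.mem_ker, Algebra.TensorProduct.lift_tmul, map_one, one_mul,
    AlgHom.comp_apply, Algebra.ofId_apply, Algebra.algebraMap_self, RingHom.id_apply,
    Algebra.TensorProduct.includeRight_apply]
  show e.symm (Ideal.Quotient.mk q (1 ⊗ₜ a)) = 0 ↔ _
  rw [map_eq_zero_iff e.symm e.symm.injective, Ideal.Quotient.eq_zero_iff_mem]

end CurveData

end Fermat.Agent.Jac
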