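import Fermat.Agent.Jac.Diagonal.Points

/-!
# Sections without zeros trivialise; nonzero sections are nonzero at some point
-/

set_option autoImplicit false

universe u

noncomputable section

open TensorProduct

namespace Fermat.Agent.Jac.LineData

variable {k : Type u} [Field k] {D : CurveData.{u} k}
variable {R : Type u} [CommRing R] [Algebra k R] (L : LineData D R)

theorem f₀_mem_smul {I : Ideal (D.AR R)} {m : L.M} (h : m ∈ I • (⊤ : Submodule (D.AR R) L.M)) :
    L.f₀ m ∈ I.map (algebraMap (D.AR R) (D.BR R)) • (⊤ : Submodule (D.BR R) L.P) := by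
  refine Submodule.smul_induction_on h (fun a ha m _ => ?_)
    (fun x y hx hy => by rw [map_add]; exact add_mem hx hy)
  rw [f₀_smul]
  exact Submodule.smul_mem_smul (Ideal.mem_map_of_mem _ ha) Submodule.mem_top

theorem f₁_mem_smul {J : Ideal (D.AR₁ R)} {n : L.N} (h : n ∈ J • (⊤ : Submodule (D.AR₁ R) L.N)) :
    L.f₁ n ∈ J.map (algebraMap (D.AR₁ R) (D.BR R)) • (⊤ : Submodule (D.BR R) L.P) := by
  refine Submodule.smul_induction_on h (fun a ha m _ => ?_)
    (fun x y hx hy => by rw [map_add]; exact add_mem hx hy)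
  rw [f₁_smul]
  exact Submodule.smul_mem_smul (Ideal.mem_map_of_mem _ ha) Submodule.mem_top

/-- Saturation: elements of an extended submodule come from the submodule after clearing the
denominator. -/
theorem exists_pow_smul_mem_of_mem_map_smul {S T N P : Type u} [CommRing S] [CommRing T]
    [Algebra S T] [AddCommGroup N] [Module S N] [AddCommGroup P] [Module T P] (s : S)
    [IsLocalization.Away s T] (f : N →+ P) (hf : Function.Injective f)
    (hsmul : ∀ (a : S) (n : N), f (a • n) = algebraMap S T a • f n)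
    (hsurj : ∀ p : P, ∃ (j : ℕ) (n : N), algebraMap S T s ^ j • p = f n) {J : Ideal S} {n : N}
    (h : f n ∈ J.map (algebraMap S T) • (⊤ : Submodule T P)) :
    ∃ j : ℕ, s ^ j • n ∈ J • (⊤ : Submodule S N) := by
  suffices ∀ p ∈ J.map (algebraMap S T) • (⊤ : Submodule T P),
      ∃ (j : ℕ) (v : N), v ∈ J • (⊤ : Submodule S N) ∧ algebraMap S T s ^ j • p = f v by
    obtain ⟨j, v, hv, hjv⟩ := this _ h
    refine ⟨j, ?_⟩
    rwa [hf (a₁ := s ^ j • n) (a₂ := v) (by rw [hsmul, map_pow, hjv])]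
  intro p hp
  refine Submodule.smul_induction_on hp (fun r hr p hpt => ?_) (fun p q hp hq => ?_)
  · clear hpt
    induction hr using Submodule.span_induction generalizing p with
    | mem r hr =>
      obtain ⟨a, ha, rfl⟩ := hr
      obtain ⟨j, v, hv⟩ := hsurj p
      exact ⟨j, a • v, Submodule.smul_mem_smul ha Submodule.mem_top,
        by rw [smul_comm, hv, hsmul]⟩
    | zero => exact ⟨0, 0, zero_mem _, by simp⟩
    | add a b _ _ ha hb =>
      obtain ⟨i, v, hv, hv'⟩ := ha p
      obtain ⟨j, w, hw, hw'⟩ := hb p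
      refine ⟨i + j, s ^ j • v + s ^ i • w,
        add_mem (Submodule.smul_mem _ _ hv) (Submodule.smul_mem _ _ hw), ?_⟩
      rw [map_add, hsmul, hsmul, ← hv', ← hw', map_pow, map_pow]
      simp only [smul_smul, ← add_smul]
      congr 1
      ring
    | smul c a _ ha =>
      obtain ⟨i, v, hv, hv'⟩ := ha p
      obtain ⟨j, b, hb⟩ := IsLocalization.Away.surj s c
      refine ⟨i + j, b • v, Submodule.smul_mem _ _ hv, ?_⟩
      rw [hsmul, ← hv', ← hb, smul_eq_mul]
      simp only [smul_smul]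
      congr 1
      ring
  · obtain ⟨i, v, hv, hv'⟩ := hp
    obtain ⟨j, w, hw, hw'⟩ := hq
    refine ⟨i + j, s ^ j • v + s ^ i • w,
      add_mem (Submodule.smul_mem _ _ hv) (Submodule.smul_mem _ _ hw), ?_⟩
    rw [map_add, hsmul, hsmul, ← hv', ← hw', map_pow, map_pow, smul_smul, smul_smul, ← pow_add,
      ← pow_add, add_comm j i, ← smul_add]

theorem mem_smul_of_pow_smul {S N : Type u} [CommRing S] [AddCommGroup N] [Module S N]
    {J : Ideal S} {s c : S} (hc : c * s - 1 ∈ J) {j : ℕ} {n : N}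
    (h : s ^ j • n ∈ J • (⊤ : Submodule S N)) : n ∈ J • (⊤ : Submodule S N) := by
  have h1 : (c * s) ^ j - 1 ∈ J := by
    obtain ⟨q, hq⟩ := sub_one_dvd_pow_sub_one (c * s) j
    rw [hq]
    exact J.mul_mem_right q hc
  have h2 : n = c ^ j • (s ^ j • n) - ((c * s) ^ j - 1) • n := by
    rw [smul_smul, ← mul_pow, sub_smul, one_smul]; abel
  rw [h2]
  exact sub_mem (Submodule.smul_mem _ _ h) (Submodule.smul_mem_smul h1 Submodule.mem_top)

theorem snd_mem_of_fst_mem {I : Ideal (D.AR R)} {J : Ideal (D.AR₁ R)}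
    (hIJ : I.map (algebraMap (D.AR R) (D.BR R)) = J.map (algebraMap (D.AR₁ R) (D.BR R)))
    {c : D.AR₁ R} (hc : c * D.yR R - 1 ∈ J) {m : L.M} {n : L.N} (hmn : L.f₀ m = L.f₁ n)
    (h : m ∈ I • (⊤ : Submodule (D.AR R) L.M)) : n ∈ J • (⊤ : Submodule (D.AR₁ R) L.N) := by
  have h1 := L.f₀_mem_smul h
  rw [hmn, hIJ] at h1
  obtain ⟨j, hj⟩ := exists_pow_smul_mem_of_mem_map_smul (D.yR R) L.f₁.toAddMonoidHom
    L.f₁_injective (fun a n => L.f₁_smul a n) (fun p => D.exists_tmul_of_mem₁ p) h1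
  exact mem_smul_of_pow_smul hc hj

theorem fst_mem_of_snd_mem {I : Ideal (D.AR R)} {J : Ideal (D.AR₁ R)}
    (hIJ : I.map (algebraMap (D.AR R) (D.BR R)) = J.map (algebraMap (D.AR₁ R) (D.BR R)))
    {c : D.AR R} (hc : c * D.xR R - 1 ∈ I) {m : L.M} {n : L.N} (hmn : L.f₀ m = L.f₁ n)
    (h : n ∈ J • (⊤ : Submodule (D.AR₁ R) L.N)) : m ∈ I • (⊤ : Submodule (D.AR R) L.M) := by
  have h1 := L.f₁_mem_smul h
  rw [← hmn, ← hIJ] at h1
  have hsurj : ∀ p : L.P, ∃ (j : ℕ) (m : L.M),
      algebraMap (D.AR R) (D.BR R) (D.xR R) ^ j • p = L.f₀.toAddMonoidHom m := fun p => by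
    obtain ⟨z, rfl⟩ := L.glue.surjective p
    obtain ⟨j, m, hjm⟩ := D.exists_tmul_of_mem z
    refine ⟨j, m, ?_⟩
    rw [← map_smul, hjm]
    rfl
  obtain ⟨j, hj⟩ := exists_pow_smul_mem_of_mem_map_smul (D.xR R) L.f₀.toAddMonoidHom
    L.f₀_injective (fun a m => L.f₀_smul a m) hsurj h1
  exact mem_smul_of_pow_smul hc hj

/-- A global section generating both modules trivialises the line bundle. -/
def isoUnitOfGenerator {m : L.M} {n : L.N} (hmn : L.f₀ m = L.f₁ n)
    (hm : Function.Bijective fun a : D.AR R => a • m)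
    (hn : Function.Bijective fun a : D.AR₁ R => a • n) : Iso unit L where
  eM := LinearEquiv.ofBijective (LinearMap.toSpanSingleton (D.AR R) L.M m) hm
  eN := LinearEquiv.ofBijective (LinearMap.toSpanSingleton (D.AR₁ R) L.N n) hn
  rel j a b hab := by
    have h := congrArg (fun z => z • L.f₁ n) (unit_rel.mp hab)
    show _ • L.f₀ ((id a : D.AR R) • m) = L.f₁ ((id b : D.AR₁ R) • n)
    rw [f₀_smul, f₁_smul, hmn, smul_smul]
    exact h

/-- A global section of a line bundle on the curve trivialises it or vanishes at a point. -/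
theorem iso_unit_or_vanishes [IsAlgClosed k] (L : LineData D k) {z : L.M × L.N} (hz : z ∈ L.H0) :
    Nonempty (Iso unit L) ∨
      (∃ φ : D.A →ₐ[k] k, z.1 ∈ D.ptI₀ φ • (⊤ : Submodule (D.AR k) L.M) ∧
        z.2 ∈ D.ptJ₀ φ • (⊤ : Submodule (D.AR₁ k) L.N)) ∨
      ∃ φ : D.A₁ →ₐ[k] k, z.1 ∈ D.ptI₁ φ • (⊤ : Submodule (D.AR k) L.M) ∧
        z.2 ∈ D.ptJ₁ φ • (⊤ : Submodule (D.AR₁ k) L.N) := by
  obtain ⟨m, n⟩ := z
  have hmn := L.mem_H0.mp hz
  rcases span_eq_top_or_exists_mem (S := D.AR k) m with hm | ⟨q, hq, hm⟩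
  · rcases span_eq_top_or_exists_mem (S := D.AR₁ k) n with hn | ⟨q, hq, hn⟩
    · exact Or.inl ⟨L.isoUnitOfGenerator hmn hm hn⟩
    · obtain ⟨φ, rfl⟩ := D.exists_ptKer₁_eq q
      rw [← D.ptJ₁_eq] at hn
      refine Or.inr (Or.inr ⟨φ, ?_, hn⟩)
      refine L.fst_mem_of_snd_mem (D.map_ptI₁ φ) (c := φ D.y ⊗ₜ[k] (1 : D.A)) ?_ hmn hn
      rw [Algebra.TensorProduct.tmul_mul_tmul, mul_one, one_mul]
      exact D.tmul_x_sub_one_mem φ
  · obtain ⟨φ, rfl⟩ := D.exists_ptKer₀_eq q
    rw [← D.ptI₀_eq] at hm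
    refine Or.inr (Or.inl ⟨φ, hm, ?_⟩)
    refine L.snd_mem_of_fst_mem (D.map_ptI₀ φ) (c := φ D.x ⊗ₜ[k] (1 : D.A₁)) ?_ hmn hm
    rw [Algebra.TensorProduct.tmul_mul_tmul, mul_one, one_mul]
    exact D.tmul_y_sub_one_mem φ

theorem exists_algHom_ne_zero [IsAlgClosed k] {S : Type u} [CommRing S] [IsDomain S] [Algebra k S]
    [Algebra.FiniteType k S] {s : S} (hs : s ≠ 0) : ∃ φ : S →ₐ[k] k, φ s ≠ 0 := by
  have : IsJacobsonRing S := isJacobsonRing_of_finiteType (A := k)
  obtain ⟨q, hq, hsq⟩ : ∃ q : Ideal S, q.IsMaximal ∧ s ∉ q := by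
    by_contra! hall
    refine hs ?_
    have hj := (isJacobsonRing_iff_prime_eq.mp ‹IsJacobsonRing S›) ⊥ Ideal.isPrime_bot
    rw [← Ideal.mem_bot, ← hj, Ideal.jacobson, Ideal.mem_sInf]
    exact fun q hq => hall q hq.2
  let e := RingEquiv.ofBijective (algebraMap k (S ⧸ q)) (quotient_bijective q)
  refine ⟨{ (e.symm : (S ⧸ q) →+* k).comp (Ideal.Quotient.mk q) with
    commutes' := fun r => e.symm_apply_apply r }, fun h => hsq ?_⟩
  rw [← Ideal.Quotient.eq_zero_iff_mem]
  exact e.symm.injective (h.trans (map_zero e.symm).symm)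

/-- A nonzero global section over a field is nonzero at some `k`-point of the intersection. -/
theorem exists_point_notMem [IsAlgClosed k] {K : Type u} [Field K] [Algebra k K]
    (L : LineData D K) {z : L.M × L.N} (hz : z ∈ L.H0) (hz0 : z ≠ 0) :
    ∃ φ : D.B →ₐ[k] k, z.1 ∉ D.ptKer₀ K (φ.comp D.i₀) • (⊤ : Submodule (D.AR K) L.M) := by
  classical
  have hmn := L.mem_H0.mp (show (z.1, z.2) ∈ L.H0 from hz)
  have h1 : z.1 ≠ 0 := fun h => hz0 (Prod.ext h (L.f₁_injective (by
    rw [← hmn, h, map_zero]; exact (map_zero L.f₁).symm)))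
  obtain ⟨f, hf⟩ : ∃ f : Module.Dual (D.AR K) L.M, f z.1 ≠ 0 := by
    by_contra! h
    refine h1 ?_
    obtain ⟨s, hs⟩ := Module.projective_def'.mp (inferInstance : Module.Projective (D.AR K) L.M)
    have h2 : s z.1 = 0 := Finsupp.ext fun i => h ((Finsupp.lapply i).comp s)
    have h3 := LinearMap.congr_fun hs z.1
    rw [LinearMap.comp_apply, h2, map_zero] at h3
    exact h3.symm
  let b := Module.Free.chooseBasis k K
  let v : D.AR K := f z.1
  obtain ⟨i, hi⟩ : ∃ i, TensorProduct.lid k D.A (LinearMap.rTensor D.A (b.coord i) v) ≠ 0 := by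
    by_contra! h
    refine hf ?_
    show v = 0
    have key : ∀ w : D.AR K, (∀ i, TensorProduct.lid k D.A (LinearMap.rTensor D.A (b.coord i) w) = 0) →
        w = 0 := fun w hw => by
      let Bs := Algebra.TensorProduct.basis D.A b
      have hc : ∀ (u : D.AR K) (i), Bs.repr (TensorProduct.comm k K D.A u) i =
          TensorProduct.lid k D.A (LinearMap.rTensor D.A (b.coord i) u) := fun u i => by
        induction u using TensorProduct.induction_on with
        | zero => simp
        | tmul r a =>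
          rw [TensorProduct.comm_tmul, Algebra.TensorProduct.basis_repr_tmul]
          simp [Algebra.smul_def, mul_comm]
        | add p q hp hq => simp [hp, hq]
      have : TensorProduct.comm k K D.A w = 0 := Bs.repr.injective (by
        ext i; rw [hc, hw]; simp)
      simpa using this
    exact key v h
  have := D.isDomain_B
  have := D.finiteType_B
  obtain ⟨φ, hφ⟩ := exists_algHom_ne_zero (k := k) (fun hh => hi (D.i₀_injective (hh.trans (map_zero _).symm)))
  refine ⟨φ, fun hmem => ?_⟩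
  have hv : v ∈ D.ptKer₀ K (φ.comp D.i₀) := by
    have hle : (D.ptKer₀ K (φ.comp D.i₀) • (⊤ : Submodule (D.AR K) L.M)) ≤
        Submodule.comap f (D.ptKer₀ K (φ.comp D.i₀)) :=
      Submodule.smul_le.mpr fun a ha m _ => by
        rw [Submodule.mem_comap, map_smul, smul_eq_mul]
        exact Ideal.mul_mem_right _ _ ha
    exact hle hmem
  refine hφ ?_
  have hc : ∀ w : D.AR K, b.coord i (Algebra.TensorProduct.lift (AlgHom.id k K)
      ((Algebra.ofId k K).comp (φ.comp D.i₀)) (fun _ _ => Commute.all _ _) w) =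
      φ (D.i₀ (TensorProduct.lid k D.A (LinearMap.rTensor D.A (b.coord i) w))) := fun w => by
    induction w using TensorProduct.induction_on with
    | zero => simp
    | tmul r a =>
      rw [Algebra.TensorProduct.lift_tmul, AlgHom.comp_apply, AlgHom.id_apply, Algebra.ofId_apply,
        mul_comm, ← Algebra.smul_def, map_smul, LinearMap.rTensor_tmul, TensorProduct.lid_tmul,
        map_smul, map_smul, AlgHom.comp_apply, smul_eq_mul, smul_eq_mul, mul_comm]
    | add p q hp hq => simp only [map_add, hp, hq]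
  rw [← hc v, RingHom.mem_ker.mp hv, map_zero]

end Fermat.Agent.Jac.LineData
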